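import Mathlib
import Fermat.Agent.LT.T7.Level2

/-!
# Row LT, tower T7, node T7.L2.1 `SupplyC`, field `matched` (deputy helper305): FIRST CUT -- Spec

OFF-MAIN.  Definitions and frozen Props only (the proved top is `MatchTop.lean`).  No hole,
nothing assumed.  ADDITIVE (new names only, suffix `305`).  Vocabulary: `T7/Level2.lean`
(helper797, sha256 1551664660339642) and its imports (`T5/Spec` v4, `T6/Spec` v3, A0),
byte-identical copies.

    globMatch_of305 : IotaC305 K K' → UnfoldC305 K → UnfoldC305 K' → TorCommC305 K →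
        TorCommC305 K' → TwistRepC305 K' → EllRegC305 K K' → TorHaarC305 K → TorMeasC305 K K' →
        TorCompC305 K K' → CutIntC305 K K' → GlobMatchC305 K K'
    (asset leaf, used by the proofs of the leaves: `SigmaLocC305`, the local form of `s.σA`)

## The node

`GlobMatchC305 K K'`: GLOBAL MATCHING FROM LOCAL MATCHING.  `K'/K` cyclic of odd prime degree
`l`, `K` totally complex, `D` the data of the comparison, `T` a finite set of places of `K`
(containing the places which ramify in `K'`), `T'` the places of `K'` over `T`, local levels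
`n w` (upstairs), `m v` (downstairs), `μc` a Haar measure of `GL₂(ℂ)`.  There is a constant
`κ ≠ 0` (depending on `D`, `n`, `m`, `μc` and a BASE set `T₀` outside which the levels are `0`
ONLY, the same for all `T ⊇ T₀`: the words enlarge `T`) such that for all local components
`φ₀ w`, `Φ w'` (upstairs), `f₀ v`, `F v'` (downstairs) which are LOCALLY MATCHED in the form of
T6 (`LocHyp305`): the pure tensor `φ'` over `K'` and `κ` times the pure tensor `f` over `K` are
MATCHED in the sense of `T7.IsGlobMatch D` (if they are test functions).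

## The cut (first level)

For `δ ∈ GL₂(K')` with `N δ = γ ∈ GL₂(K)` elliptic, `T_𝔸(δ)` = the twisted centraliser of `δ` in
`GL₂(𝔸_{K'})` (`tA305`), `μT` a Haar measure of it, `β` a CUT-OFF function
(`∫_{T_𝔸} β(t x) dμT(t) = 1` on the support of the integrand; `IsCutOn305`):

    ∫_{F_δ} φ♭(x⁻¹ δ σ(x)) dμ(x)  =  μT(T(K) \ T_𝔸 ∩ slab) · ∫_{G(𝔸)} φ♭(y⁻¹ δ σ(y)) β(y) dμ(y)

* **`UnfoldC305 K`** (LEAF, ONE field; Fubini): the displayed identity, for every test function,
  every Haar measure `μT`, every cut-off.  NO integrability hypothesis, NO finiteness of the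
  volume (with the conventions `∞.toReal = 0`, Bochner integral `0` for non-integrable
  functions, the identity holds in all cases: Tonelli gives
  `∫⁻_{F_δ} ‖Ψ‖ = vol · ∫⁻ ‖Ψ‖ β` in `[0, ∞]`).
* **`TwistRepC305 K'`** (LEAF, ONE field): change of the representative `δ` in its
  `σ`-conjugacy class (to make `N δ = γ` EXACT).
* **`EllRegC305 K K'`** (LEAF, algebra): `T6.IsEll γ` gives `T5.IsEllRegOver`.
* **`IotaC305 K K'`** (LEAF/NODE): the base change `ι : 𝔸_K → 𝔸_{K'}` of adeles exists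
  (`RestrictedProduct.mapAlongRingHom` from the local embeddings `K_v → K'_w`).
* **`TorHaarC305 K`**, **`TorMeasC305 K K'`** (LEAVES): Haar measures on the tori; `ι` maps
  `T_𝔸(γ)` ISOMORPHICALLY onto `T_𝔸(δ)` (adelic form of `T6.TwCentC`) and transports the measure.
* **`TorCompC305 K K'`** (LEAF): `vol(γ) = l · vol(δ)` for linked measures
  (`‖det ι(t)‖_{K'} = ‖det t‖_K^l`, translation by the ray generator `r'` upstairs).
* **`CutIntC305 K K'`** (NODE, the core; second cut `MatchCut.lean`): for locally matched pure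
  tensors the cut-off integrals upstairs and downstairs agree up to the constant `κ`, for
  suitable PRODUCT cut-offs; they vanish downstairs if `γ` is not a norm (`T6.NormImageTCC`).
  Inputs: splitting of the Haar measures at `T_δ ∪ S_∞`, `T6.OrbSumIntC`, `T6.FundLemmaC` for the
  unit element outside `T`, Fubini at the split places (`T6.SplitInt3C` and its general form).

FALSITY CHECKS (helper305): constants: `κ = c'_G / c_G`, `c_G` = the constant of `μ` against the
product of the local Haar measures normalised by `vol U(m_v) = 1`, `vol GL₂(𝒪_v) = 1` outside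
`T`, `μc` at infinity; the constant of the torus measure cancels (same torus upstairs and
downstairs, linked measures); the factor `l` of the rays is the factor of `TorCompC305`.  The
set `T_δ = T ∪ {v : γ is not in GL₂(𝒪_v) or its discriminant is not a unit}` depends on `δ`, the
constants do not (units at the new places, volume one).  Order at a split place: `w j =
σ(w (j+1))` (`T5.PlaceRel s (w (j+1)) (w j)`) is the convention of `T6.shiftHom`
(`(σ y)_w = y_{σ⁻¹ w}` in the coordinates of `K_v`).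
-/

set_option autoImplicit false

open AutomorphicForm IsDedekindDomain NumberField MeasureTheory
open scoped ComplexConjugate

noncomputable section

namespace Fermat.Agent.LT.T7.H305

open Fermat.Agent.LT.H556 Fermat.Agent.LT.H556.A0 Fermat.Agent.LT.T7

attribute [local instance] Fermat.Agent.LT.T5.instMeasurableSpaceG

/-! ## 1. One field: components, pure tensors, tori, cut-offs -/

section OneField

variable {K : Type} [Field K] [NumberField K]

/-- The component at the finite place `v`, in `GL₂(K_v)`. -/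
def finGL305 (v : HeightOneSpectrum (𝓞 K)) : G K →* GL (Fin 2) (v.adicCompletion K) :=
  Matrix.GeneralLinearGroup.map (T5.finHom v)

/-- The component at the infinite place `w`, in `GL₂(ℂ)`. -/
def infGL305 (w : InfinitePlace K) : G K →* GL (Fin 2) ℂ :=
  Matrix.GeneralLinearGroup.map (T5.infHom w)

/-- `h` lies in `GL₂(𝒪_v)` at every finite place `v ∉ T`. -/
def OutT305 (T : Finset (HeightOneSpectrum (𝓞 K))) (h : G K) : Prop :=
  ∀ v : HeightOneSpectrum (𝓞 K), v ∉ T → IsIntegralAt v h ∧ IsIntegralAt v h⁻¹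

open Classical in
/-- THE PURE TENSOR `⊗_{v ∈ T} f₀_v ⊗ ⊗_w F_w ⊗ ⊗_{v ∉ T} 1_{GL₂(𝒪_v)}`. -/
def pure305 (T : Finset (HeightOneSpectrum (𝓞 K)))
    (f₀ : ∀ v : HeightOneSpectrum (𝓞 K), GL (Fin 2) (v.adicCompletion K) → ℂ)
    (F : InfinitePlace K → GL (Fin 2) ℂ → ℂ) (h : G K) : ℂ :=
  if OutT305 T h then
    (∏ v ∈ T, f₀ v (finGL305 v h)) * ∏ w : InfinitePlace K, F w (infGL305 w h)
  else 0

/-- The twisted centraliser `T_𝔸(δ) = {x ∈ GL₂(𝔸_K) : x⁻¹ δ σ(x) = δ}`. -/
def tA305 (s : T5.AdelicAut K) (δ : GL (Fin 2) K) : Subgroup (G K) :=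
  T6.twCentSub s.onG (T5.ratG δ)

/-- `β` is a CUT-OFF function for the torus `T_𝔸(δ)` with the measure `μT`, on the set `Ω`:
measurable, non-negative, `∫_{T_𝔸} β(t x) dμT(t) = 1` for `x ∈ Ω`. -/
def IsCutOn305 (s : T5.AdelicAut K) (δ : GL (Fin 2) K)
    (μT : @Measure (tA305 s δ) (borel _)) (β : G K → ℝ) (Ω : Set (G K)) : Prop :=
  Measurable β ∧ (∀ x : G K, 0 ≤ β x) ∧
    ∀ x ∈ Ω, @integral _ _ _ _ (borel _) μT (fun t : tA305 s δ => β ((t : G K) * x)) = 1

/-- The cut-off integral `∫ φ♭(y⁻¹ δ σ(y)) β(y) dμ(y)`. -/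
def cutInt305 (r : G K) (s : T5.AdelicAut K) (φ : G K → ℂ) (δ : GL (Fin 2) K)
    (μ : Measure (G K)) (β : G K → ℝ) : ℂ :=
  ∫ y, T5.twTerm r s φ δ y * ((β y : ℝ) : ℂ) ∂μ

/-- The volume of `T(K) \ (T_𝔸(δ) ∩ slab⁻¹)`, computed in the fundamental domain `Fδ`. -/
def torVol305 (s : T5.AdelicAut K) (δ : GL (Fin 2) K)
    (μT : @Measure (tA305 s δ) (borel _)) (Fδ : Set (G K)) : ENNReal :=
  μT {t : tA305 s δ | ((t : G K))⁻¹ ∈ Fδ}

variable (K)

/-- **LEAF C2.1 = UNFOLD (ONE field; Fubini).**  See the header.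
Proof.  `Ψ(x) = φ♭(x⁻¹ δ σ(x))` is left invariant under `T_𝔸(δ)`, measurable (locally finite
sum of continuous functions).  Tonelli/Fubini on `T_𝔸 × G(𝔸)`:
`∫_{F_δ} Ψ = ∫_{F_δ} Ψ(x) ∫_T β(t x) dt dx = ∫_T ∫_G 1_{F_δ}(t⁻¹ y) Ψ(y) β(y) dy dt
 = ∫_G Ψ(y) β(y) μT{t : t⁻¹ y ∈ F_δ} dy` (left invariance of `μ`), and
`E_y = {t ∈ T_𝔸 : t⁻¹ y ∈ F_δ}` is a strict fundamental domain of `T(K)` (right translations,
`‖det‖ = 1` on `T(K)`: product formula) in `{t : ‖det y‖/2 < ‖det t‖ ≤ ‖det y‖}`; cutting it at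
`‖det t‖ = 1 · 2^j` and translating one piece by the ray generator `r ∈ T_𝔸` (central, fixed by
`σ`, `‖det r‖ = 2`) gives a fundamental domain in `{1/2 < ‖det t‖ ≤ 1}`, so `μT(E_y) = μT(E_1)`
(two fundamental domains of a countable group of measure preserving maps have the same
measure; `T_𝔸` is commutative: it lies in the centraliser of the regular element `N δ`).  If
the volume is `∞` or `∫⁻ ‖Ψ‖ β = ∞` both sides vanish.  Mathlib + `T1.AdNormC` + `T1.LocCompC`
(second countable, locally compact). -/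
def UnfoldC305 : Prop :=
  ∀ R : Frame5 K, IsFrame5 R →
    ∀ (s : T5.AdelicAut K) (l : ℕ) (k : Subfield K) (𝔫 : Ideal (𝓞 K)),
      T5.IsCyclicOfDegree s l k → T5.AutPreserves s 𝔫 R.μ R.r →
    ∀ δ : GL (Fin 2) K, T5.IsEllRegOver k (s.normUpTo l δ) →
    ∀ φ : G K → ℂ, T5.IsTestFn 𝔫 T5.trivType φ →
    ∀ Fδ : Set (G K), T5.IsTwDomain s δ Fδ →
    (∀ x ∈ tA305 s δ, ∀ y ∈ tA305 s δ, x * y = y * x) →
    ∀ μT : @Measure (tA305 s δ) (borel _), @Measure.IsHaarMeasure _ _ _ (borel _) μT →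
    ∀ β : G K → ℝ, IsCutOn305 s δ μT β {x | T5.twTerm R.r s φ δ x ≠ 0} →
      ∫ x in Fδ, T5.twTerm R.r s φ δ x ∂(R.μ)
        = (((torVol305 s δ μT Fδ).toReal : ℝ) : ℂ) * cutInt305 R.r s φ δ R.μ β

/-- **LEAF C2.1b = TOR-COMM (ONE field).**  The twisted centraliser of `δ` in `GL₂(𝔸_K)` is
commutative if `N δ` is elliptic regular.
Proof.  `σ_𝔸^l = 1` (`SigmaLocC305`: `σ_𝔸` is determined by `σ`), so `x⁻¹ δ σ(x) = δ` gives
`x⁻¹ N(δ) x = N(δ)`; the discriminant of `N δ` is a non-zero element of `K`, a unit of `𝔸_K`, and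
the centraliser of a `2 × 2` matrix with invertible discriminant over a commutative ring `A`
is `A[γ]` (if `x γ = γ x` then `x = a + b γ`: Cramer). -/
def TorCommC305 : Prop :=
  ∀ R : Frame5 K, IsFrame5 R →
    ∀ (s : T5.AdelicAut K) (l : ℕ) (k : Subfield K) (𝔫 : Ideal (𝓞 K)),
      T5.IsCyclicOfDegree s l k → T5.AutPreserves s 𝔫 R.μ R.r →
    ∀ δ : GL (Fin 2) K, T5.IsEllRegOver k (s.normUpTo l δ) →
      ∀ x ∈ tA305 s δ, ∀ y ∈ tA305 s δ, x * y = y * x

/-- **ASSET LEAF C2.0 = SIGMA-LOC (ONE field): the local form of the adelic automorphism.**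
A continuous ring automorphism `σ_𝔸` of `𝔸_K` which extends the automorphism `σ` of `K` acts
place by place: at the finite places by the continuous extensions
`s_w : K_w ≃ K_{σ w}` of `σ`, at the infinite places by the identity or the complex conjugation
in the coordinates of `T5.infHom`.
Proof.  `σ_𝔸` permutes the primitive idempotents of `𝔸_K` (the indicator functions of the
places); it maps the factor `K_w` onto a factor `K_{w'}` by a continuous isomorphism which is
`σ` on the dense subfield `K`, so `w' = σ(w)`; `(σ_𝔸 a)_{w'} = (σ_𝔸 (e_w a))_{w'} = s_w(a_w)`. -/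
def SigmaLocC305 : Prop :=
  ∀ s : T5.AdelicAut K,
    (∀ w w' : HeightOneSpectrum (𝓞 K), T5.PlaceRel s w w' →
      ∃ sw : w.adicCompletion K ≃+* w'.adicCompletion K,
        (∀ x : K, sw (algebraMap K (w.adicCompletion K) x)
          = algebraMap K (w'.adicCompletion K) (s.σ x)) ∧
        (∀ x : w.adicCompletion K, Valued.v (sw x) = Valued.v x) ∧
        ∀ a : Adl K, T5.finHom w' (s.σA a) = sw (T5.finHom w a)) ∧
    ∀ w : InfinitePlace K,
      (∀ a : Adl K, T5.infHom w (s.σA a) = T5.infHom (w.comap (s.σ : K →+* K)) a) ∨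
        ∀ a : Adl K, T5.infHom w (s.σA a) = conj (T5.infHom (w.comap (s.σ : K →+* K)) a)

/-- **LEAF C2.2 = TWIST-REP (ONE field).**  If `N δ` is conjugate to `γ'` in `GL₂(K)` there is a
`σ`-conjugate `δ₁ = h⁻¹ δ σ(h)` with `N δ₁ = γ'` EXACTLY (`N (h⁻¹ δ σ(h)) = h⁻¹ N(δ) h`,
`σ^l = 1`), and for every fundamental domain `Fδ` of the twisted centraliser of `δ` the set
`Fδ₁ = h⁻¹ Fδ` is one for `δ₁`, with the same integral (left invariance of `μ`,
`x⁻¹ δ₁ σ(x) = (h x)⁻¹ δ σ(h x)`; `‖det h‖ = 1`: product formula). -/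
def TwistRepC305 : Prop :=
  ∀ R : Frame5 K, IsFrame5 R →
    ∀ (s : T5.AdelicAut K) (l : ℕ) (k : Subfield K) (𝔫 : Ideal (𝓞 K)),
      T5.IsCyclicOfDegree s l k → T5.AutPreserves s 𝔫 R.μ R.r →
    ∀ (δ γ' : GL (Fin 2) K), IsConj (s.normUpTo l δ) γ' →
    ∀ Fδ : Set (G K), T5.IsTwDomain s δ Fδ →
    ∃ (δ₁ : GL (Fin 2) K) (Fδ₁ : Set (G K)), s.normUpTo l δ₁ = γ' ∧ T5.IsTwDomain s δ₁ Fδ₁ ∧
      ∀ φ : G K → ℂ, ∫ x in Fδ₁, T5.twTerm R.r s φ δ₁ x ∂(R.μ)
        = ∫ x in Fδ, T5.twTerm R.r s φ δ x ∂(R.μ)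

/-- **LEAF C2.5a = TOR-HAAR (ONE field).**  The twisted centraliser is a closed subgroup of the
locally compact group `GL₂(𝔸_K)`: it has a Haar measure. -/
def TorHaarC305 : Prop :=
  ∀ (s : T5.AdelicAut K) (δ : GL (Fin 2) K),
    ∃ μT : @Measure (tA305 s δ) (borel _), @Measure.IsHaarMeasure _ _ _ (borel _) μT

end OneField

/-! ## 2. Two fields: the base change of adeles, linked measures -/

section TwoFields

variable {K K' : Type} [Field K] [NumberField K] [Field K'] [NumberField K'] [Algebra K K']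

/-- `ι : 𝔸_K → 𝔸_{K'}` is THE BASE CHANGE OF ADELES for the cyclic extension with generator `s`
of degree `l`: a continuous injective ring homomorphism, compatible with `K → K'`, with image
the fixed ring of `σ`, given at the places by embeddings of the completions, with
`‖ι x‖ = ‖x‖^l` on the ideles, closed. -/
structure IsAdeleBase305 (s : T5.AdelicAut K') (l : ℕ) (ι : Adl K →+* Adl K') : Prop where
  cont : Continuous ι
  closed : Topology.IsClosedEmbedding ι
  rat : ∀ x : K, ι (algebraMap K (Adl K) x) = algebraMap K' (Adl K') (algebraMap K K' x)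
  fixed : ∀ x : Adl K, s.σA (ι x) = ι x
  onto : ∀ y : Adl K', s.σA y = y → ∃ x : Adl K, ι x = y
  norm : ∀ x : (Adl K)ˣ, T5.adNorm (ι (x : Adl K)) = T5.adNorm (x : Adl K) ^ l
  fin : ∀ (v : HeightOneSpectrum (𝓞 K)) (w : HeightOneSpectrum (𝓞 K')), PlaceOver K K' v w →
    ∃ (e : ℕ) (i : v.adicCompletion K →+* w.adicCompletion K'), 0 < e ∧
      (∀ x : K, i (algebraMap K (v.adicCompletion K) x)
        = algebraMap K' (w.adicCompletion K') (algebraMap K K' x)) ∧
      (∀ x : v.adicCompletion K, Valued.v (i x) = Valued.v x ^ e) ∧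
      ∀ x : Adl K, T5.finHom w (ι x) = i (T5.finHom v x)
  inf : ∀ w' : InfinitePlace K',
    (∀ x : Adl K, T5.infHom w' (ι x) = T5.infHom (w'.comap (algebraMap K K')) x) ∨
      ∀ x : Adl K, T5.infHom w' (ι x) = conj (T5.infHom (w'.comap (algebraMap K K')) x)

/-- The Haar measures `μT` of `T_𝔸(γ) ⊆ GL₂(𝔸_K)` and `μT'` of `T_𝔸(δ) ⊆ GL₂(𝔸_{K'})` are LINKED
by `ι`: `μT'` is the image of `μT`. -/
def IsTorLinked305 (ι : Adl K →+* Adl K') (s : T5.AdelicAut K') (δ : GL (Fin 2) K')
    (γ : GL (Fin 2) K)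
    (μT : @Measure (tA305 (T5.AdelicAut.id K) γ) (borel _))
    (μT' : @Measure (tA305 s δ) (borel _)) : Prop :=
  ∀ A : Set (G K'), MeasurableSet A →
    μT' {t : tA305 s δ | (t : G K') ∈ A}
      = μT {t : tA305 (T5.AdelicAut.id K) γ |
          Matrix.GeneralLinearGroup.map ι (t : G K) ∈ A}

variable (K K')

/-- **LEAF C2.4 = IOTA (the base change of adeles exists).**
Proof.  Finite part: `RestrictedProduct.mapAlongRingHom` along `w ↦ w ∩ 𝓞_K` (finite fibres)
with the embeddings `K_v → K'_w` of the completions (extension by continuity of `K → K'`;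
`T6.InstExtC`, `T6.InstSplitC` for the shape), continuous by
`RestrictedProduct.mapAlong_continuous`.  Infinite part: `w' ↦ w' ∘ (K → K')`, the completions
are `ℂ` (`K` totally complex).  Fixed ring: `σ` permutes the places over `v` transitively and
the decomposition groups act on the completions with fixed field `K_v`.  Norm: `∑_{w ∣ v} e_w
f_w = l`.  (`s.σA` is determined by `s.σ`: a continuous ring automorphism of `𝔸_{K'}` permutes
the primitive idempotents, and `K'` is dense in every `K'_w`.) -/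
def IotaC305 : Prop :=
  ∀ D : CompData K K', IsCompData D → IsCycExt K K' D.l → TotCplx K →
    ∃ ι : Adl K →+* Adl K', IsAdeleBase305 D.s D.l ι

/-- **LEAF C2.3 = ELL-REG (algebra).**  An elliptic `γ ∈ GL₂(K)` is elliptic regular over `K`
(`⊤`) and its image in `GL₂(K')` is elliptic regular over the image `k` of `K`; `N_1 γ = γ`. -/
def EllRegC305 : Prop :=
  ∀ D : CompData K K', IsCompData D → ∀ γ : GL (Fin 2) K, T6.IsEll γ →
    T5.IsEllRegOver D.k (Matrix.GeneralLinearGroup.map (algebraMap K K') γ) ∧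
      T5.IsEllRegOver (⊤ : Subfield K) ((T5.AdelicAut.id K).normUpTo 1 γ)

/-- **LEAF C2.5b = TOR-MEAS (linked Haar measures).**  For `N δ = γ` elliptic, `t ↦ ι(t)` is an
isomorphism of topological groups of `T_𝔸(γ)` onto `T_𝔸(δ)` (adelic form of `T6.TwCentC`:
`x⁻¹ δ σ(x) = δ` gives `x⁻¹ γ x = γ`, so `x ∈ 𝔸_{K'}[γ]`, commutative, contains `δ`; then
`σ(x) = x`, `x = ι(t)`); Haar measures correspond. -/
def TorMeasC305 : Prop :=
  ∀ D : CompData K K', IsCompData D → IsCycExt K K' D.l → TotCplx K →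
    ∀ ι : Adl K →+* Adl K', IsAdeleBase305 D.s D.l ι →
    ∀ (δ : GL (Fin 2) K') (γ : GL (Fin 2) K), T6.IsEll γ →
      D.s.normUpTo D.l δ = Matrix.GeneralLinearGroup.map (algebraMap K K') γ →
      ∃ (μT : @Measure (tA305 (T5.AdelicAut.id K) γ) (borel _))
        (μT' : @Measure (tA305 D.s δ) (borel _)),
        @Measure.IsHaarMeasure _ _ _ (borel _) μT ∧ @Measure.IsHaarMeasure _ _ _ (borel _) μT' ∧
          IsTorLinked305 ι D.s δ γ μT μT'

/-- **LEAF C2.6 = TOR-COMP (the volumes).**  For linked measures and fundamental domains `Fγ`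
(downstairs), `Fδ` (upstairs): `vol(γ) = l · vol(δ)` in `[0, ∞]`.
Proof.  `E = {t : t⁻¹ ∈ Fγ}` is a fundamental domain of `T(K)` in `{1/2 < ‖det t‖_K ≤ 1}`,
`E' = {t' : t'⁻¹ ∈ Fδ}` one of `T'(K') = ι(T(K))` (`T6.TwCentC`) in
`{1/2 < ‖det t'‖_{K'} ≤ 1} = ι{2^{-1/l} < ‖det t‖_K ≤ 1}`; the `l` translates of the latter by
the powers of `r'` (`‖det r'‖_{K'} = 2`, `r' ∈ T_𝔸(δ)`) tile the former. -/
def TorCompC305 : Prop :=
  ∀ D : CompData K K', IsCompData D → IsCycExt K K' D.l → TotCplx K →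
    ∀ ι : Adl K →+* Adl K', IsAdeleBase305 D.s D.l ι →
    ∀ (δ : GL (Fin 2) K') (γ : GL (Fin 2) K), T6.IsEll γ →
      D.s.normUpTo D.l δ = Matrix.GeneralLinearGroup.map (algebraMap K K') γ →
    ∀ (Fδ : Set (G K')) (Fγ : Set (G K)), T5.IsTwDomain D.s δ Fδ →
      T5.IsTwDomain (T5.AdelicAut.id K) γ Fγ →
    ∀ (μT : @Measure (tA305 (T5.AdelicAut.id K) γ) (borel _))
      (μT' : @Measure (tA305 D.s δ) (borel _)),
      @Measure.IsHaarMeasure _ _ _ (borel _) μT → @Measure.IsHaarMeasure _ _ _ (borel _) μT' →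
      IsTorLinked305 ι D.s δ γ μT μT' →
      torVol305 (T5.AdelicAut.id K) γ μT Fγ = (D.l : ENNReal) * torVol305 D.s δ μT' Fδ

/-! ## 3. Local matching (the form of T6), the core node, the top node -/

variable {K K'}

/-- Complex conjugation on `GL₂(ℂ)`. -/
def conjGL305 : GL (Fin 2) ℂ →* GL (Fin 2) ℂ :=
  Matrix.GeneralLinearGroup.map (starRingEnd ℂ)

/-- Iterated convolution on `GL₂(ℂ)`: `Φ 0 * Φ 1 * ⋯ * Φ j` (left nested, `T6.convInt`). -/
def convL305 (μc : @Measure (GL (Fin 2) ℂ) (borel _)) (Φ : ℕ → GL (Fin 2) ℂ → ℂ) :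
    ℕ → GL (Fin 2) ℂ → ℂ
  | 0 => Φ 0
  | (j + 1) => @T6.convInt _ _ (borel _) μc (convL305 μc Φ j) (Φ (j + 1))

/-- `T'` is the set of the places of `K'` over the places of `T`. -/
def IsOver305 (T : Finset (HeightOneSpectrum (𝓞 K))) (T' : Finset (HeightOneSpectrum (𝓞 K'))) :
    Prop :=
  ∀ w : HeightOneSpectrum (𝓞 K'), w ∈ T' ↔ ∃ v ∈ T, PlaceOver K K' v w

/-- The levels are `0` outside `T₀` (resp. outside the places over `T₀`). -/
def IsLevelAt305 (T₀ : Finset (HeightOneSpectrum (𝓞 K)))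
    (n : HeightOneSpectrum (𝓞 K') → ℕ) (m : HeightOneSpectrum (𝓞 K) → ℕ) : Prop :=
  (∀ v : HeightOneSpectrum (𝓞 K), v ∉ T₀ → m v = 0) ∧
    ∀ (v : HeightOneSpectrum (𝓞 K)) (w : HeightOneSpectrum (𝓞 K')), v ∉ T₀ →
      PlaceOver K K' v w → n w = 0

/-- Every place outside `T` is unramified in `K'`. -/
def UnramOut305 (T : Finset (HeightOneSpectrum (𝓞 K))) : Prop :=
  ∀ v : HeightOneSpectrum (𝓞 K), v ∉ T → ∀ w : HeightOneSpectrum (𝓞 K'), PlaceOver K K' v w →
    ∃ x : 𝓞 K, x ∈ v.asIdeal ∧ algebraMap (𝓞 K) (𝓞 K') x ∉ w.asIdeal ^ 2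

/-- **THE LOCAL HYPOTHESES** (local matching in the form of T6).  Levels `n w` upstairs, `m v`
downstairs; components `φ₀ w` (finite places of `K'`), `Φ w'` (infinite places of `K'`), `f₀ v`,
`F v'` (places of `K`).
* `inert`: at a place `v ∈ T` with ONE place `w` over it, for every local extension datum
  `(e, i, s_w)` as in `T6.InstExtC`: the twisted orbit sums of `φ₀ w` are the orbit sums of
  `f₀ v` at the regular norms, and the orbit sums of `f₀ v` vanish at the regular elements which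
  are not norms (conclusion of `T6.BadMatchC`, of `T6.FundLemmaC` + `T6.BCExistsC`).
* `split`: at a place `v ∈ T` which splits, for every enumeration `w 0, …, w (l-1)` of the
  places over it with `w j = σ(w (j+1))` and identifications `i j : K_v ≃ K'_{w j}`: the levels
  agree and `f₀ v = φ₀ (w 0) * ⋯ * φ₀ (w (l-1))` (hypothesis of `T6.SplitMatchC`).
* `arch`: at an infinite place `v` (complex; it splits): `F v` is the convolution of the `Φ w'`,
  `w' ∣ v`, in every order; all components are continuous with compact support and invariant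
  under complex conjugation (true for bi-`U(2)`-invariant functions: Cartan decomposition). -/
structure LocHyp305 (D : CompData K K') (μc : @Measure (GL (Fin 2) ℂ) (borel _))
    (T : Finset (HeightOneSpectrum (𝓞 K)))
    (n : HeightOneSpectrum (𝓞 K') → ℕ) (m : HeightOneSpectrum (𝓞 K) → ℕ)
    (φ₀ : ∀ w : HeightOneSpectrum (𝓞 K'), GL (Fin 2) (w.adicCompletion K') → ℂ)
    (Φ : InfinitePlace K' → GL (Fin 2) ℂ → ℂ)
    (f₀ : ∀ v : HeightOneSpectrum (𝓞 K), GL (Fin 2) (v.adicCompletion K) → ℂ)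
    (F : InfinitePlace K → GL (Fin 2) ℂ → ℂ) : Prop where
  inv_up : ∀ v ∈ T, ∀ w : HeightOneSpectrum (𝓞 K'), PlaceOver K K' v w →
    T6.IsBiInv (T6.InU (n w)) (φ₀ w) ∧ T6.HasFinSupp (T6.InU (n w)) (φ₀ w)
  inv_down : ∀ v ∈ T, T6.IsBiInv (T6.InU (m v)) (f₀ v) ∧ T6.HasFinSupp (T6.InU (m v)) (f₀ v)
  arch_up : ∀ w : InfinitePlace K', Continuous (Φ w) ∧ HasCompactSupport (Φ w) ∧
    ∀ g : GL (Fin 2) ℂ, Φ w (conjGL305 g) = Φ w g
  arch_down : ∀ v : InfinitePlace K, Continuous (F v) ∧ HasCompactSupport (F v) ∧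
    ∀ g : GL (Fin 2) ℂ, F v (conjGL305 g) = F v g
  inert : ∀ v ∈ T, ∀ w : HeightOneSpectrum (𝓞 K'), PlaceOver K K' v w →
    (∀ w' : HeightOneSpectrum (𝓞 K'), PlaceOver K K' v w' → w' = w) →
    ∀ (e : ℕ) (i : v.adicCompletion K →+* w.adicCompletion K')
      (sw : w.adicCompletion K' ≃+* w.adicCompletion K'),
      (∀ x : K, i (algebraMap K (v.adicCompletion K) x)
        = algebraMap K' (w.adicCompletion K') (algebraMap K K' x)) →
      (∀ y : K', sw (algebraMap K' (w.adicCompletion K') y)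
        = algebraMap K' (w.adicCompletion K') (D.s.σ y)) →
      T6.IsLocalExt (v.adicCompletion K) (w.adicCompletion K') D.l e i sw →
      (∀ (δ : GL (Fin 2) (w.adicCompletion K')) (γ : GL (Fin 2) (v.adicCompletion K))
          (c c' : ℂ), T6.IsReg γ →
          IsConj (T6.twNorm sw D.l δ) (Matrix.GeneralLinearGroup.map i γ) →
          T6.IsTwOrbSum sw (n w) (φ₀ w) δ c → T6.IsOrbSum (m v) (f₀ v) γ c' → c = c') ∧
        ∀ (γ : GL (Fin 2) (v.adicCompletion K)) (c' : ℂ), T6.IsReg γ →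
          ¬ T6.IsNormFrom D.l i sw γ → T6.IsOrbSum (m v) (f₀ v) γ c' → c' = 0
  split : ∀ v ∈ T, ∀ (w : ℕ → HeightOneSpectrum (𝓞 K'))
      (i : ∀ j : ℕ, v.adicCompletion K ≃+* (w j).adicCompletion K'),
      (∀ j : ℕ, PlaceOver K K' v (w j)) → (∀ j : ℕ, T5.PlaceRel D.s (w (j + 1)) (w j)) →
      (∀ j : ℕ, 0 < j → j < D.l → w j ≠ w 0) →
      (∀ (j : ℕ) (x : K), i j (algebraMap K (v.adicCompletion K) x)
        = algebraMap K' ((w j).adicCompletion K') (algebraMap K K' x)) →
      (∀ (j : ℕ) (x : v.adicCompletion K), Valued.v (i j x) = Valued.v x) →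
      (∀ j : ℕ, n (w j) = m v) ∧
        T6.IsConvProd (T6.InU (m v)) D.l
          (fun j g => φ₀ (w j)
            (Matrix.GeneralLinearGroup.map ((i j : v.adicCompletion K ≃+* _) :
              v.adicCompletion K →+* (w j).adicCompletion K') g))
          (f₀ v)
  arch : ∀ (v : InfinitePlace K) (w : ℕ → InfinitePlace K'),
    (∀ j : ℕ, (w j).comap (algebraMap K K') = v) →
    (∀ j j' : ℕ, j < D.l → j' < D.l → w j = w j' → j = j') →
    F v = convL305 μc (fun j => Φ (w j)) (D.l - 1)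

variable (K K')

/-- **NODE C2.7 = CUT-INT (the core; second cut in `MatchCut.lean`).**  For locally matched
pure tensors and linked torus measures there are cut-off functions upstairs and downstairs for
which the cut-off integrals agree up to the constant `κ`; downstairs the cut-off integral
vanishes (for a suitable cut-off) if `γ` is not a norm.  See the header (FALSITY CHECKS). -/
def CutIntC305 : Prop :=
  ∀ D : CompData K K', IsCompData D → IsCycExt K K' D.l → D.l ≠ 2 → TotCplx K →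
    ∀ ι : Adl K →+* Adl K', IsAdeleBase305 D.s D.l ι →
    ∀ μc : @Measure (GL (Fin 2) ℂ) (borel _), @Measure.IsHaarMeasure _ _ _ (borel _) μc →
    ∀ (T₀ : Finset (HeightOneSpectrum (𝓞 K))), UnramOut305 (K' := K') T₀ →
    ∀ (n : HeightOneSpectrum (𝓞 K') → ℕ) (m : HeightOneSpectrum (𝓞 K) → ℕ),
      IsLevelAt305 T₀ n m →
    ∃ κ : ℂ, κ ≠ 0 ∧
      ∀ (T : Finset (HeightOneSpectrum (𝓞 K))) (T' : Finset (HeightOneSpectrum (𝓞 K'))),
        T₀ ⊆ T → IsOver305 T T' →
      ∀ (φ₀ : ∀ w : HeightOneSpectrum (𝓞 K'), GL (Fin 2) (w.adicCompletion K') → ℂ)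
        (Φ : InfinitePlace K' → GL (Fin 2) ℂ → ℂ)
        (f₀ : ∀ v : HeightOneSpectrum (𝓞 K), GL (Fin 2) (v.adicCompletion K) → ℂ)
        (F : InfinitePlace K → GL (Fin 2) ℂ → ℂ),
        LocHyp305 D μc T n m φ₀ Φ f₀ F →
        (∀ (δ : GL (Fin 2) K') (γ : GL (Fin 2) K), T6.IsEll γ →
          D.s.normUpTo D.l δ = Matrix.GeneralLinearGroup.map (algebraMap K K') γ →
          ∀ (μT : @Measure (tA305 (T5.AdelicAut.id K) γ) (borel _))
            (μT' : @Measure (tA305 D.s δ) (borel _)),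
            @Measure.IsHaarMeasure _ _ _ (borel _) μT →
            @Measure.IsHaarMeasure _ _ _ (borel _) μT' →
            IsTorLinked305 ι D.s δ γ μT μT' →
            ∃ β' : G K' → ℝ, ∃ β : G K → ℝ,
              IsCutOn305 D.s δ μT' β'
                {x | T5.twTerm D.R'.r D.s (pure305 T' φ₀ Φ) δ x ≠ 0} ∧
              IsCutOn305 (T5.AdelicAut.id K) γ μT β
                {x | T5.twTerm D.R.r (T5.AdelicAut.id K) (pure305 T f₀ F) γ x ≠ 0} ∧
              cutInt305 D.R'.r D.s (pure305 T' φ₀ Φ) δ D.R'.μ β'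
                = κ * cutInt305 D.R.r (T5.AdelicAut.id K) (pure305 T f₀ F) γ D.R.μ β) ∧
        ∀ γ : GL (Fin 2) K, T6.IsEll γ → (¬ ∃ δ : GL (Fin 2) K', IsNormOf D δ γ) →
          ∀ μT : @Measure (tA305 (T5.AdelicAut.id K) γ) (borel _),
            @Measure.IsHaarMeasure _ _ _ (borel _) μT →
            ∃ β : G K → ℝ,
              IsCutOn305 (T5.AdelicAut.id K) γ μT β
                {x | T5.twTerm D.R.r (T5.AdelicAut.id K) (pure305 T f₀ F) γ x ≠ 0} ∧
              cutInt305 D.R.r (T5.AdelicAut.id K) (pure305 T f₀ F) γ D.R.μ β = 0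

/-- **THE NODE C2 = GLOBAL MATCHING FROM LOCAL MATCHING.**  See the header. -/
def GlobMatchC305 : Prop :=
  ∀ D : CompData K K', IsCompData D → IsCycExt K K' D.l → D.l ≠ 2 → TotCplx K →
    ∀ μc : @Measure (GL (Fin 2) ℂ) (borel _), @Measure.IsHaarMeasure _ _ _ (borel _) μc →
    ∀ (T₀ : Finset (HeightOneSpectrum (𝓞 K))), UnramOut305 (K' := K') T₀ →
    ∀ (n : HeightOneSpectrum (𝓞 K') → ℕ) (m : HeightOneSpectrum (𝓞 K) → ℕ),
      IsLevelAt305 T₀ n m →
    ∃ κ : ℂ, κ ≠ 0 ∧
      ∀ (T : Finset (HeightOneSpectrum (𝓞 K))) (T' : Finset (HeightOneSpectrum (𝓞 K'))),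
        T₀ ⊆ T → IsOver305 T T' →
      ∀ (φ₀ : ∀ w : HeightOneSpectrum (𝓞 K'), GL (Fin 2) (w.adicCompletion K') → ℂ)
        (Φ : InfinitePlace K' → GL (Fin 2) ℂ → ℂ)
        (f₀ : ∀ v : HeightOneSpectrum (𝓞 K), GL (Fin 2) (v.adicCompletion K) → ℂ)
        (F : InfinitePlace K → GL (Fin 2) ℂ → ℂ),
        LocHyp305 D μc T n m φ₀ Φ f₀ F →
        ∀ (φ' : G K' → ℂ) (f : G K → ℂ),
          (∀ h : G K', φ' h = pure305 T' φ₀ Φ h) →
          (∀ h : G K, f h = κ * pure305 T f₀ F h) →
          T5.IsTestFn D.𝔑 T5.trivType φ' → T5.IsTestFn D.𝔫 T5.trivType f →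
          IsGlobMatch D φ' f

end TwoFields

end Fermat.Agent.LT.T7.H305

end

/-! ## Appendix (v2, ADDITIVE, 16:40Z): equation lemmas of `convL305`, REALISED ONCE

`simp [convL305]`, `rw [convL305]`, `unfold convL305` realise `convL305.eq_def` in the using
module unless an imported module has done so; two such copies differ and the kernel checker of
the grader rejects the closure (fix of helper8 / helper112 / helper255, same form as the appendix
of `T6/Spec.lean` of row-lead helper17).  Realised here, they are declared by no other module.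
NOTHING above this line is changed (v1 = sha256 541c6ac7). -/

namespace Fermat.Agent.LT.T7.H305

theorem convL305_eqns_realised : True := by
  have _h0 := @convL305.eq_def
  have _h1 := @convL305.eq_1
  have _h2 := @convL305.eq_2
  trivial

end Fermat.Agent.LT.T7.H305
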