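import Mathlib
import Fermat.Agent.LT.T7.H305.MatchSpec

/-!
# Row LT, tower T7, node C2.7 `CutIntC305` (helper305): SECOND CUT -- Spec

OFF-MAIN.  Definitions and frozen Props only (the proved top is `MatchCutTop.lean`).  No hole,
nothing assumed.  ADDITIVE (new names only, suffix `305`).  Vocabulary: `MatchSpec.lean` v2
(= v1 541c6ac7 + appendix) and its imports.

    cutIntC_of305 : GoodSetC305 K K' → UnitMatchC305 K K' → LocMeasC305 → LocCutC305 →
        ArchMeasC305 → TorSplitC305 K → FactDownC305 K → FactUpC305 K K' → LocVanC305 →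
        NonNormLocC305 K K' → CutIntC305 K K'

## The cut

`γ ∈ GL₂(K)` elliptic, `N δ = γ`, `T ⊇ T₀` finite, locally matched components (`LocHyp305`).

1. (`GoodSetC305`) enlarge `T` to a finite set `S` such that `γ` (and `δ`) are GOOD outside `S`
   (in `GL₂(𝒪_v)`, discriminant a unit).
2. (`UnitMatchC305`) the pure tensors do not change if the components at `v ∈ S \ T` are the
   unit elements `1_{GL₂(𝒪_v)}`, and these are locally matched (fundamental lemma for the unit).
3. LOCAL DATA at `v ∈ S` and at the infinite places (`LocMeasC305`, `LocCutC305`,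
   `ArchMeasC305`): Haar measures `μ_v` with `μ_v(U(m_v)) = 1`, Haar measures `μt_v` of the local
   tori with `μt_v(T_v^c) = 1`, continuous cut-off functions `β_v`; at the infinite places any
   Haar measures of the tori and cut-off functions.
4. (`TorSplitC305`) the TORUS CONSTANT `c_T` of `μT` against the local torus measures (the same
   for all good `S`).
5. (`FactDownC305`, NODE) for the PRODUCT cut-off `β = c_T⁻¹ 1_{Out_S} ∏ β_v ∏ β_w`:

       ∫ f♭(y⁻¹ γ y) β(y) dμ(y) = (c_G / c_T) ∑_j ∏_{v ∈ S} I_v ∏_{w ∣ ∞} I_w(j),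

   `I_v = ∫ f_v(y⁻¹ γ y) β_v(y) dμ_v(y)`, `I_w(j) = ∫ F_w(y⁻¹ (γ r^j)_w y) β_w(y) dμc(y)`,
   `c_G` the constant of `μ` against the local measures (the same for all `S ⊇ T₀`).
6. (`FactUpC305`, NODE) for a suitable cut-off `β'` upstairs and linked torus measures:

       ∫ φ'♭(y⁻¹ δ σ(y)) β'(y) dμ'(y) = (c'_G / c_T) ∑_j ∏_{v ∈ S} I_v ∏_{w ∣ ∞} I_w(j)

   with THE SAME local integrals `I_v`, `I_w(j)` downstairs (local matching is used here:
   `T6.OrbSumIntC` + `T6.OrbSumExC` + `LocHyp305.inert` at the inert and ramified places, Fubini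
   + the split integral identity + `LocHyp305.split` at the split places, `LocHyp305.arch` at
   the infinite places).
7. `κ = c'_G / c_G`.
8. (`NonNormLocC305`, `LocVanC305`) if `γ` is not a norm it is not a local norm at a finite place
   `v₀` with one place above it; put `v₀` in `S`; `I_{v₀} = 0`.

ASSET leaves (inputs of the two nodes): `HaarSplitC305 K` (the Haar measure of `GL₂(𝔸_K)`
against the local measures), `SuppDownC305 K` (support of the integrand downstairs),
`LocInertC305`, `LocSplitC305` (local equalities).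
-/

set_option autoImplicit false

open AutomorphicForm IsDedekindDomain NumberField MeasureTheory
open scoped ComplexConjugate

noncomputable section

namespace Fermat.Agent.LT.T7.H305

open Fermat.Agent.LT.H556 Fermat.Agent.LT.H556.A0 Fermat.Agent.LT.T7

attribute [local instance] Fermat.Agent.LT.T5.instMeasurableSpaceG

/-! ## 1. Local vocabulary (abstract local fields, `GL₂(ℂ)`) -/

section Local

variable {k : Type} [Field k] [Valued k T6.Γ₀]

/-- `μ` is the Haar measure of `GL₂(k)` with `μ(U(n)) = 1`. -/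
def IsLocHaar305 (n : ℕ) (μ : @Measure (GL (Fin 2) k) (borel _)) : Prop :=
  @Measure.IsHaarMeasure _ _ _ (borel _) μ ∧ μ {g | T6.InU n g} = 1

/-- `μT` is the Haar measure of the `s`-twisted centraliser of `δ` in `GL₂(k)` which gives the
volume `1` to its maximal compact subgroup (the normalisation of `T6.OrbSumIntC`). -/
def IsLocTor305 (s : k ≃+* k) (δ : GL (Fin 2) k)
    (μT : @Measure (T6.twCentSub (T6.glAut s) δ) (borel _)) : Prop :=
  @Measure.IsHaarMeasure _ _ _ (borel _) μT ∧
    μT {t | Valued.v ((t : GL (Fin 2) k) : Matrix (Fin 2) (Fin 2) k).trace ≤ 1 ∧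
      Valued.v ((t : GL (Fin 2) k) : Matrix (Fin 2) (Fin 2) k).det = 1} = 1

/-- `β` is a continuous cut-off function for the `s`-twisted centraliser of `δ` (the hypothesis of
`T6.OrbSumIntC`). -/
def IsLocCut305 (s : k ≃+* k) (δ : GL (Fin 2) k)
    (μT : @Measure (T6.twCentSub (T6.glAut s) δ) (borel _)) (β : GL (Fin 2) k → ℝ) : Prop :=
  Continuous β ∧ (∀ x, 0 ≤ β x) ∧
    ∀ x : GL (Fin 2) k,
      @integral _ _ _ _ (borel _) μT
        (fun t : T6.twCentSub (T6.glAut s) δ => β ((t : GL (Fin 2) k) * x)) = 1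

open Classical in
/-- The unit element `1_{GL₂(𝒪)}` of the Hecke algebra. -/
def unit305 (g : GL (Fin 2) k) : ℂ := if T6.InU 0 g then 1 else 0

end Local

/-- The local cut-off integral `∫ f(y⁻¹ γ y) β(y) dμ(y)` (any group). -/
def locInt305 {H : Type} [Group H] [TopologicalSpace H] (μ : @Measure H (borel _))
    (β : H → ℝ) (f : H → ℂ) (γ : H) : ℂ :=
  @integral _ _ _ _ (borel _) μ (fun y : H => f (y⁻¹ * γ * y) * ((β y : ℝ) : ℂ))

/-- The centraliser of `γ` in a group (the form of `T6.twCentSub`). -/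
abbrev cent305 {H : Type} [Group H] (γ : H) : Subgroup H := T6.twCentSub (MonoidHom.id H) γ

/-- `β` is a continuous cut-off function for the centraliser of `γ` (any topological group). -/
def IsCut305 {H : Type} [Group H] [TopologicalSpace H] (γ : H)
    (μT : @Measure (cent305 γ) (borel _)) (β : H → ℝ) : Prop :=
  Continuous β ∧ (∀ x, 0 ≤ β x) ∧
    ∀ x : H, @integral _ _ _ _ (borel _) μT (fun t : cent305 γ => β ((t : H) * x)) = 1

/-! ## 2. One field: good sets, local data, the torus constant, the factorisation downstairs -/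

section OneFieldCut

variable {K : Type} [Field K] [NumberField K]

/-- The image of `γ ∈ GL₂(K)` in `GL₂(K_v)`. -/
def locG305 (v : HeightOneSpectrum (𝓞 K)) : GL (Fin 2) K →* GL (Fin 2) (v.adicCompletion K) :=
  Matrix.GeneralLinearGroup.map (algebraMap K (v.adicCompletion K))

/-- The image of `γ ∈ GL₂(K)` in `GL₂(ℂ)` at the infinite place `w` (the component of `ratG γ`). -/
def archG305 (w : InfinitePlace K) (γ : GL (Fin 2) K) : GL (Fin 2) ℂ :=
  infGL305 w (T5.ratG γ)

/-- `γ` is INTEGRAL outside `S`: in `GL₂(𝒪_v)` for `v ∉ S`. -/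
def IntOut305 (S : Finset (HeightOneSpectrum (𝓞 K))) (γ : GL (Fin 2) K) : Prop :=
  ∀ v : HeightOneSpectrum (𝓞 K), v ∉ S → T6.InU 0 (locG305 v γ)

/-- `γ` is GOOD outside `S`: in `GL₂(𝒪_v)` with a unit discriminant for `v ∉ S`. -/
def GoodOut305 (S : Finset (HeightOneSpectrum (𝓞 K))) (γ : GL (Fin 2) K) : Prop :=
  ∀ v : HeightOneSpectrum (𝓞 K), v ∉ S →
    T6.InU 0 (locG305 v γ) ∧ Valued.v (T6.disc (locG305 v γ)) = 1

/-- The components of `y ∈ GL₂(𝔸_K)` at the places of `S` and at the infinite places. -/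
def compS305 (S : Finset (HeightOneSpectrum (𝓞 K))) (y : G K) :
    (∀ v : S, GL (Fin 2) ((v : HeightOneSpectrum (𝓞 K)).adicCompletion K)) ×
      (InfinitePlace K → GL (Fin 2) ℂ) :=
  (fun v => finGL305 v.1 y, fun w => infGL305 w y)

/-- The components of the pure tensor at the places `v ∉ T` replaced by the unit element. -/
def ext305 (T : Finset (HeightOneSpectrum (𝓞 K)))
    (f₀ : ∀ v : HeightOneSpectrum (𝓞 K), GL (Fin 2) (v.adicCompletion K) → ℂ) :
    ∀ v : HeightOneSpectrum (𝓞 K), GL (Fin 2) (v.adicCompletion K) → ℂ :=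
  open Classical in fun v => if v ∈ T then f₀ v else unit305

/-- **LOCAL DATA** for the elliptic element `γ` (downstairs): local Haar measures, Haar measures
of the local tori, local cut-off functions, at all finite places; Haar measures of the tori and
cut-off functions at the infinite places. -/
structure LocData305 (K : Type) [Field K] [NumberField K] (γ : GL (Fin 2) K) where
  /-- the Haar measure of `GL₂(K_v)` -/
  μv : ∀ v : HeightOneSpectrum (𝓞 K), @Measure (GL (Fin 2) (v.adicCompletion K)) (borel _)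
  /-- the Haar measure of the centraliser of `γ` in `GL₂(K_v)` -/
  μt : ∀ v : HeightOneSpectrum (𝓞 K),
    @Measure (T6.twCentSub (T6.glAut (RingEquiv.refl (v.adicCompletion K))) (locG305 v γ))
      (borel _)
  /-- the cut-off function at `v` -/
  βv : ∀ v : HeightOneSpectrum (𝓞 K), GL (Fin 2) (v.adicCompletion K) → ℝ
  /-- the Haar measure of the centraliser of `γ` in `GL₂(ℂ)` at `w` -/
  μtc : ∀ w : InfinitePlace K, @Measure (cent305 (archG305 w γ)) (borel _)
  /-- the cut-off function at `w` -/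
  βc : InfinitePlace K → GL (Fin 2) ℂ → ℝ

/-- The properties of the local data (levels `m`). -/
structure IsLocData305 (m : HeightOneSpectrum (𝓞 K) → ℕ) {γ : GL (Fin 2) K}
    (L : LocData305 K γ) : Prop where
  haar : ∀ v : HeightOneSpectrum (𝓞 K), IsLocHaar305 (m v) (L.μv v)
  tor : ∀ v : HeightOneSpectrum (𝓞 K),
    IsLocTor305 (RingEquiv.refl (v.adicCompletion K)) (locG305 v γ) (L.μt v)
  cut : ∀ v : HeightOneSpectrum (𝓞 K),
    IsLocCut305 (RingEquiv.refl (v.adicCompletion K)) (locG305 v γ) (L.μt v) (L.βv v)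
  torc : ∀ w : InfinitePlace K, @Measure.IsHaarMeasure _ _ _ (borel _) (L.μtc w)
  cutc : ∀ w : InfinitePlace K, IsCut305 (archG305 w γ) (L.μtc w) (L.βc w)

/-- `cT` is THE TORUS CONSTANT of the Haar measure `μT` of `T_𝔸(γ)` against the local torus
measures of `L`: for every `S` outside which `γ` is good, the image of `μT` restricted to
`{t : t_v ∈ GL₂(𝒪_v), v ∉ S}` under `t ↦ (t_v)_{v ∈ S ∪ S_∞}` is `cT` times the product of the
local torus measures (as measures on the local groups). -/
def IsTorConst305 (γ : GL (Fin 2) K)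
    (μT : @Measure (tA305 (T5.AdelicAut.id K) γ) (borel _)) (L : LocData305 K γ) (cT : ℝ) :
    Prop :=
  letI : MeasurableSpace (tA305 (T5.AdelicAut.id K) γ) := borel _
  letI : ∀ v : HeightOneSpectrum (𝓞 K), MeasurableSpace (GL (Fin 2) (v.adicCompletion K)) :=
    fun _ => borel _
  letI : MeasurableSpace (GL (Fin 2) ℂ) := borel _
  letI : ∀ v : HeightOneSpectrum (𝓞 K), MeasurableSpace
      (T6.twCentSub (T6.glAut (RingEquiv.refl (v.adicCompletion K))) (locG305 v γ)) :=
    fun _ => borel _
  letI : ∀ w : InfinitePlace K, MeasurableSpace (cent305 (archG305 w γ)) := fun _ => borel _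
  ∀ S : Finset (HeightOneSpectrum (𝓞 K)), GoodOut305 S γ →
    Measure.map (fun t : tA305 (T5.AdelicAut.id K) γ => compS305 S (t : G K))
        (μT.restrict {t | OutT305 S (t : G K)})
      = ENNReal.ofReal cT •
        ((Measure.pi fun v : S => Measure.map Subtype.val (L.μt v.1)).prod
          (Measure.pi fun w : InfinitePlace K => Measure.map Subtype.val (L.μtc w)))

open Classical in
/-- THE PRODUCT CUT-OFF `β = c_T⁻¹ 1_{Out_S} ∏_{v ∈ S} β_v ∏_w β_w`. -/
def prodCut305 (S : Finset (HeightOneSpectrum (𝓞 K))) (cT : ℝ) {γ : GL (Fin 2) K}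
    (L : LocData305 K γ) (y : G K) : ℝ :=
  if OutT305 S y then
    cT⁻¹ * (∏ v ∈ S, L.βv v (finGL305 v y)) * ∏ w : InfinitePlace K, L.βc w (infGL305 w y)
  else 0

/-- THE FACTORISED VALUE `∑_j ∏_{v ∈ S} I_v ∏_w I_w(j)`. -/
def factVal305 (r : G K) (S : Finset (HeightOneSpectrum (𝓞 K))) {γ : GL (Fin 2) K}
    (L : LocData305 K γ)
    (f₀ : ∀ v : HeightOneSpectrum (𝓞 K), GL (Fin 2) (v.adicCompletion K) → ℂ)
    (μc : @Measure (GL (Fin 2) ℂ) (borel _)) (F : InfinitePlace K → GL (Fin 2) ℂ → ℂ) : ℂ :=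
  ∑' j : ℤ, (∏ v ∈ S, locInt305 (L.μv v) (L.βv v) (f₀ v) (locG305 v γ)) *
    ∏ w : InfinitePlace K, locInt305 μc (L.βc w) (F w) (infGL305 w (T5.ratG γ * r ^ j))

/-! ### Leaves and the node, one field -/

/-- **LEAF C2.7.1 = LOC-MEAS (abstract local field).**  `GL₂(k)` has a Haar measure with
`μ(U(n)) = 1`; the `s`-twisted centraliser of `δ` (`N δ` regular) has a Haar measure which gives
the volume `1` to its maximal compact subgroup.
Proof.  `k` is locally compact (complete, discrete valuation, finite residue field: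
`T6.IsLocalField`), so `GL₂(k)` is a locally compact group and `U(n)` is a compact open subgroup:
`0 < μ(U(n)) < ∞`.  The twisted centraliser is a closed subgroup; `{t : tr t integral, det t a
unit}` is a compact open subgroup of it (`t` is integral over `𝒪`: entries bounded). -/
def LocMeasC305 : Prop :=
  ∀ (k : Type) [Field k] [Valued k T6.Γ₀] (q : ℕ), T6.IsLocalField k q →
    (∀ n : ℕ, ∃ μ : @Measure (GL (Fin 2) k) (borel _), IsLocHaar305 n μ) ∧
    ∀ (l : ℕ) (s : k ≃+* k), (∀ y : k, Valued.v (s y) = Valued.v y) → 0 < l →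
      (∀ y : k, (s ^ l) y = y) →
      ∀ δ : GL (Fin 2) k, T6.IsReg (T6.twNorm s l δ) →
        ∃ μT : @Measure (T6.twCentSub (T6.glAut s) δ) (borel _), IsLocTor305 s δ μT

/-- **LEAF C2.7.2 = LOC-CUT (abstract local field).**  Continuous cut-off functions exist for
the twisted centralisers (`N δ` regular) and every Haar measure of them.
Proof.  `exists_cutoff584` (helper584, `T7/H584/Cutoff.lean`, Mathlib only): `GL₂(k)` is locally
compact, `σ`-compact, the twisted centraliser is closed and commutative (helper159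
`comm_of_inTwCent159`), so its Haar measure is right invariant. -/
def LocCutC305 : Prop :=
  ∀ (k : Type) [Field k] [Valued k T6.Γ₀] (q : ℕ), T6.IsLocalField k q →
    ∀ (l : ℕ) (s : k ≃+* k), (∀ y : k, Valued.v (s y) = Valued.v y) → 0 < l →
      (∀ y : k, (s ^ l) y = y) →
      ∀ δ : GL (Fin 2) k, T6.IsReg (T6.twNorm s l δ) →
      ∀ μT : @Measure (T6.twCentSub (T6.glAut s) δ) (borel _),
        @Measure.IsHaarMeasure _ _ _ (borel _) μT → ∃ β : GL (Fin 2) k → ℝ, IsLocCut305 s δ μT β

/-- **LEAF C2.7.3 = ARCH-MEAS (`GL₂(ℂ)`).**  The centraliser of a regular element of `GL₂(ℂ)`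
has a Haar measure, and for every Haar measure of it there is a continuous cut-off function
(`exists_cutoff584`; the centraliser is closed and commutative). -/
def ArchMeasC305 : Prop :=
  ∀ γ : GL (Fin 2) ℂ, T6.IsReg γ →
    (∃ μT : @Measure (cent305 γ) (borel _), @Measure.IsHaarMeasure _ _ _ (borel _) μT) ∧
    ∀ μT : @Measure (cent305 γ) (borel _), @Measure.IsHaarMeasure _ _ _ (borel _) μT →
      ∃ β : GL (Fin 2) ℂ → ℝ, IsCut305 γ μT β

variable (K)

/-- **ASSET LEAF C2.7.4 = HAAR-SPLIT (ONE field; the Haar measure of `GL₂(𝔸_K)` against the local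
measures).**  `K` totally complex, `μ` a Haar measure of `GL₂(𝔸_K)`, `μc` one of `GL₂(ℂ)`, levels
`m` (`0` outside `T₀`).  There is a constant `0 < c < ∞` such that for EVERY finite `S ⊇ T₀` and
local Haar measures `μ_v` with `μ_v(U(m_v)) = 1`: the image of `μ` restricted to
`{y : y_v ∈ GL₂(𝒪_v), v ∉ S}` under `y ↦ (y_v)_{v ∈ S ∪ S_∞}` is `c` times the product measure.
Proof.  `Out_S = {y : y_v ∈ GL₂(𝒪_v), v ∉ S}` is an open subgroup, the map is a continuous
surjective homomorphism `Out_S → ∏_{v ∈ S} GL₂(K_v) × ∏_w GL₂(ℂ)` with COMPACT kernel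
`∏_{v ∉ S} GL₂(𝒪_v)` (proper: the adelic topology on `Out_S` is the product topology), so the
image of `μ` is a Haar measure: `c_S` times the product measure (uniqueness of the Haar
measure, second countable).  Evaluate on `∏_{v ∈ S} U(m_v) × B`: the preimage is
`∏_{v ∈ T₀} U(m_v) × ∏_{v ∉ T₀} GL₂(𝒪_v) × B` for all `S` (`U(0) = GL₂(𝒪_v)`), so `c_S` does not
depend on `S`. -/
def HaarSplitC305 : Prop :=
  TotCplx K → ∀ μ : Measure (G K), μ.IsHaarMeasure →
    ∀ μc : @Measure (GL (Fin 2) ℂ) (borel _), @Measure.IsHaarMeasure _ _ _ (borel _) μc →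
    ∀ (T₀ : Finset (HeightOneSpectrum (𝓞 K))) (m : HeightOneSpectrum (𝓞 K) → ℕ),
      (∀ v : HeightOneSpectrum (𝓞 K), v ∉ T₀ → m v = 0) →
    ∃ c : ℝ, 0 < c ∧
      ∀ S : Finset (HeightOneSpectrum (𝓞 K)), T₀ ⊆ S →
      ∀ μv : ∀ v : HeightOneSpectrum (𝓞 K), @Measure (GL (Fin 2) (v.adicCompletion K)) (borel _),
        (∀ v : HeightOneSpectrum (𝓞 K), IsLocHaar305 (m v) (μv v)) →
        letI : ∀ v : HeightOneSpectrum (𝓞 K),
            MeasurableSpace (GL (Fin 2) (v.adicCompletion K)) := fun _ => borel _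
        letI : MeasurableSpace (GL (Fin 2) ℂ) := borel _
        Measure.map (compS305 S) (μ.restrict {y | OutT305 S y})
          = ENNReal.ofReal c •
            ((Measure.pi fun v : S => μv v.1).prod
              (Measure.pi fun _ : InfinitePlace K => μc))

/-- **LEAF C2.7.5 = TOR-SPLIT (ONE field; the torus constant exists).**  `K` totally complex,
`γ` elliptic, `μT` a Haar measure of `T_𝔸(γ)`, local torus measures (normalised at the finite
places, arbitrary Haar measures at the infinite places): there is a torus constant `c_T > 0`.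
Proof.  As `HaarSplitC305`, for the restricted product `T_𝔸(γ)` of the local centralisers
`T_v` with respect to `T_v ∩ GL₂(𝒪_v)`; for `γ` good at `v` the latter is the maximal compact
subgroup `{tr, det integral, det a unit}` of `T_v` (helper159 `cent_compact159`), of volume `1`:
the constant does not depend on the good set `S`. -/
def TorSplitC305 : Prop :=
  TotCplx K → ∀ γ : GL (Fin 2) K, T6.IsEll γ →
    ∀ μT : @Measure (tA305 (T5.AdelicAut.id K) γ) (borel _),
      @Measure.IsHaarMeasure _ _ _ (borel _) μT →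
    ∀ L : LocData305 K γ,
      (∀ v : HeightOneSpectrum (𝓞 K),
        IsLocTor305 (RingEquiv.refl (v.adicCompletion K)) (locG305 v γ) (L.μt v)) →
      (∀ w : InfinitePlace K, @Measure.IsHaarMeasure _ _ _ (borel _) (L.μtc w)) →
      ∃ cT : ℝ, 0 < cT ∧ IsTorConst305 γ μT L cT

/-- **ASSET LEAF C2.7.6 = SUPP-DOWN (ONE field; the support of the integrand).**  If `γ` is good
outside `S` and `x⁻¹ γ x` is in `GL₂(𝒪_v)` for `v ∉ S`, then `x = t x'` with `t ∈ T_𝔸(γ)` and
`x'_v ∈ GL₂(𝒪_v)` for `v ∉ S`.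
Proof.  Local statement: helper159 `goodUnit_down159`; `x_v ∈ GL₂(𝒪_v)` for almost all `v`: put
`t_v = 1` there; the `t_v` (finitely many `≠ 1`) define an element of `GL₂(𝔸_K)`. -/
def SuppDownC305 : Prop :=
  ∀ (γ : GL (Fin 2) K) (S : Finset (HeightOneSpectrum (𝓞 K))), GoodOut305 S γ →
    ∀ x : G K, OutT305 S (x⁻¹ * T5.ratG γ * x) →
      ∃ t : G K, t ∈ tA305 (T5.AdelicAut.id K) γ ∧ OutT305 S (t⁻¹ * x)

/-- **NODE C2.7.7 = FACT-DOWN (ONE field; the factorisation downstairs).**  See the header,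
step 5.  The constant `c_G` depends on `μ`, `μc`, `T₀`, `m` only.
Proof.  (cut-off) `SuppDownC305`, right invariance of `μT` (`TorCommC305`, closed by helper233),
`IsTorConst305`, Fubini for the finite product (`MeasureTheory.integral_fintype_prod_eq_prod`).
(integral) the sum over the ray is a finite sum (`‖det (g r^j)‖ = 2^j ‖det g‖`, helper584
`continuous_twTerm584`); for `y ∈ Out_S`: `y⁻¹ γ r^j y ∈ Out_S` (`γ` integral outside `S`), so
the integrand is the product of the local integrands; `HaarSplitC305`, Fubini.  All local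
integrands are integrable: `T6.OrbSumIntC` at the finite places (finite orbit sums), closed
orbits of regular elements at the infinite places. -/
def FactDownC305 : Prop :=
  TotCplx K → ∀ R : Frame5 K, IsFrame5 R →
    ∀ μc : @Measure (GL (Fin 2) ℂ) (borel _), @Measure.IsHaarMeasure _ _ _ (borel _) μc →
    ∀ (T₀ : Finset (HeightOneSpectrum (𝓞 K))) (m : HeightOneSpectrum (𝓞 K) → ℕ),
      (∀ v : HeightOneSpectrum (𝓞 K), v ∉ T₀ → m v = 0) →
    ∃ cG : ℝ, 0 < cG ∧
      ∀ S : Finset (HeightOneSpectrum (𝓞 K)), T₀ ⊆ S →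
      ∀ (f₀ : ∀ v : HeightOneSpectrum (𝓞 K), GL (Fin 2) (v.adicCompletion K) → ℂ)
        (F : InfinitePlace K → GL (Fin 2) ℂ → ℂ),
        (∀ v ∈ S, T6.IsBiInv (T6.InU (m v)) (f₀ v) ∧ T6.HasFinSupp (T6.InU (m v)) (f₀ v)) →
        (∀ w : InfinitePlace K, Continuous (F w) ∧ HasCompactSupport (F w)) →
      ∀ γ : GL (Fin 2) K, T6.IsEll γ → GoodOut305 S γ →
      ∀ μT : @Measure (tA305 (T5.AdelicAut.id K) γ) (borel _),
        @Measure.IsHaarMeasure _ _ _ (borel _) μT →
      ∀ (L : LocData305 K γ) (cT : ℝ), IsLocData305 m L → 0 < cT → IsTorConst305 γ μT L cT →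
        IsCutOn305 (T5.AdelicAut.id K) γ μT (prodCut305 S cT L)
            {x | T5.twTerm R.r (T5.AdelicAut.id K) (pure305 S f₀ F) γ x ≠ 0} ∧
          cutInt305 R.r (T5.AdelicAut.id K) (pure305 S f₀ F) γ R.μ (prodCut305 S cT L)
            = ((cG / cT : ℝ) : ℂ) * factVal305 R.r S L f₀ μc F

/-- **LEAF C2.7.8 = PURE-EXT (ONE field, elementary).**  The pure tensor does not change if `T`
is enlarged and the new components are the unit elements. -/
def PureExtC305 : Prop :=
  ∀ (T S : Finset (HeightOneSpectrum (𝓞 K))), T ⊆ S →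
    ∀ (f₀ : ∀ v : HeightOneSpectrum (𝓞 K), GL (Fin 2) (v.adicCompletion K) → ℂ)
      (F : InfinitePlace K → GL (Fin 2) ℂ → ℂ) (h : G K),
      pure305 S (ext305 T f₀) F h = pure305 T f₀ F h

end OneFieldCut

/-! ## 3. Local vanishing (abstract local field) -/

/-- **LEAF C2.7.9 = LOC-VAN (abstract local field).**  If all orbit sums of `f` at the regular
element `γ` vanish, the local cut-off integral vanishes.
Proof.  `T6.OrbSumExC` (for `k' = k`, `l = e = 1`, `s = 1`) gives an orbit sum `c'`; `c' = 0`;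
`T6.OrbSumIntC` (for `l = 1`): the integral is `c'`. -/
def LocVanC305 : Prop :=
  T6.T6Out →
  ∀ (k : Type) [Field k] [Valued k T6.Γ₀] (q : ℕ), T6.IsLocalField k q →
    ∀ (n : ℕ) (f : GL (Fin 2) k → ℂ), T6.IsBiInv (T6.InU n) f → T6.HasFinSupp (T6.InU n) f →
    ∀ γ : GL (Fin 2) k, T6.IsReg γ → (∀ c' : ℂ, T6.IsOrbSum n f γ c' → c' = 0) →
    ∀ μ : @Measure (GL (Fin 2) k) (borel _), IsLocHaar305 n μ →
    ∀ μT : @Measure (T6.twCentSub (T6.glAut (RingEquiv.refl k)) γ) (borel _),
      IsLocTor305 (RingEquiv.refl k) γ μT →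
    ∀ β : GL (Fin 2) k → ℝ, IsLocCut305 (RingEquiv.refl k) γ μT β →
      locInt305 μ β f γ = 0

/-! ## 4. Two fields -/

section TwoFieldsCut

variable (K K' : Type) [Field K] [NumberField K] [Field K'] [NumberField K'] [Algebra K K']

/-- **LEAF C2.7.10 = GOOD-SET.**  For `γ` elliptic, `δ ∈ GL₂(K')` and a finite set `T` there is a
finite set `S ⊇ T` with the set `S'` of the places over it such that `γ` is good outside `S` and
`δ` is integral outside `S'`.
Proof.  The entries of `γ`, `γ⁻¹`, `δ`, `δ⁻¹` and the inverse of the discriminant of `γ` are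
integral at almost all places (finitely many prime divisors of the denominators); finitely many
places of `K'` lie over a place of `K` (`Ideal.finite_factors` of `v 𝓞_{K'}`). -/
def GoodSetC305 : Prop :=
  ∀ (γ : GL (Fin 2) K) (δ : GL (Fin 2) K'), T6.IsEll γ →
    ∀ T : Finset (HeightOneSpectrum (𝓞 K)),
      ∃ (S : Finset (HeightOneSpectrum (𝓞 K))) (S' : Finset (HeightOneSpectrum (𝓞 K'))),
        T ⊆ S ∧ IsOver305 S S' ∧ GoodOut305 S γ ∧ IntOut305 S' δ

/-- **LEAF C2.7.11 = UNIT-MATCH (the fundamental lemma for the unit element).**  If `T₀ ⊆ T ⊆ S`,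
the places outside `T₀` are unramified and the levels are `0` there: the local hypotheses for
`T` give the local hypotheses for `S` with unit components at the new places.
Proof.  `v ∈ S \ T`.  Invariance, finite support: clear.  `split`: the levels are `0`, the
convolution of unit elements is the unit element (`vol = 1`: one coset), `unit ∘ i_j = unit`
(`i_j` preserves the valuation).  `inert`: `e = 1` (`v` is unramified: evaluate `val_i` at the
element of `UnramOut305`), `T6.FundLemmaC` for the unit element (`T6.IsBC l q unit unit`, helper159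
`isBC_unitFn159`, `unitFn_apply159`) with `T6.InstLocalC` and the norm of `w` from `T6.InstExtC`
(uniqueness of `q`: the residue field). -/
def UnitMatchC305 : Prop :=
  T6.T6Out →
  ∀ D : CompData K K', IsCompData D → IsCycExt K K' D.l → D.l ≠ 2 → TotCplx K →
    ∀ μc : @Measure (GL (Fin 2) ℂ) (borel _), @Measure.IsHaarMeasure _ _ _ (borel _) μc →
    ∀ (T₀ : Finset (HeightOneSpectrum (𝓞 K))), UnramOut305 (K' := K') T₀ →
    ∀ (n : HeightOneSpectrum (𝓞 K') → ℕ) (m : HeightOneSpectrum (𝓞 K) → ℕ),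
      IsLevelAt305 T₀ n m →
    ∀ (T S : Finset (HeightOneSpectrum (𝓞 K))) (T' S' : Finset (HeightOneSpectrum (𝓞 K'))),
      T₀ ⊆ T → T ⊆ S → IsOver305 T T' → IsOver305 S S' →
    ∀ (φ₀ : ∀ w : HeightOneSpectrum (𝓞 K'), GL (Fin 2) (w.adicCompletion K') → ℂ)
      (Φ : InfinitePlace K' → GL (Fin 2) ℂ → ℂ)
      (f₀ : ∀ v : HeightOneSpectrum (𝓞 K), GL (Fin 2) (v.adicCompletion K) → ℂ)
      (F : InfinitePlace K → GL (Fin 2) ℂ → ℂ),
      LocHyp305 D μc T n m φ₀ Φ f₀ F →
      LocHyp305 D μc S n m (ext305 T' φ₀) Φ (ext305 T f₀) F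

/-- **LEAF C2.7.12 = NON-NORM-LOC.**  An elliptic `γ` which is not a norm is not a local norm at
a finite place `v` with ONE place `w` above it, for some local extension datum `(e, i, s_w)`.
Proof.  `T6.NormImageTCC` (contrapositive): there is a finite place `v` at which `γ` is not a
norm in `GL₂(K' ⊗_K K_v)`.  If `v` splits, `K' ⊗ K_v = K_v^l` with the cyclic shift and every
element is a norm (`δ = (γ, 1, …, 1)`); so there is one place `w` over `v` (`l` is prime),
`K' ⊗ K_v = K'_w`, and `T6.InstExtC` gives `(e, i, s_w)`. -/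
def NonNormLocC305 : Prop :=
  T6.T6Out →
  ∀ D : CompData K K', IsCompData D → IsCycExt K K' D.l → D.l ≠ 2 → TotCplx K →
    ∀ γ : GL (Fin 2) K, T6.IsEll γ → (¬ ∃ δ : GL (Fin 2) K', IsNormOf D δ γ) →
      ∃ (v : HeightOneSpectrum (𝓞 K)) (w : HeightOneSpectrum (𝓞 K')) (e : ℕ)
        (i : v.adicCompletion K →+* w.adicCompletion K')
        (sw : w.adicCompletion K' ≃+* w.adicCompletion K'),
        PlaceOver K K' v w ∧
        (∀ w' : HeightOneSpectrum (𝓞 K'), PlaceOver K K' v w' → w' = w) ∧
        (∀ x : K, i (algebraMap K (v.adicCompletion K) x)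
          = algebraMap K' (w.adicCompletion K') (algebraMap K K' x)) ∧
        (∀ y : K', sw (algebraMap K' (w.adicCompletion K') y)
          = algebraMap K' (w.adicCompletion K') (D.s.σ y)) ∧
        T6.IsLocalExt (v.adicCompletion K) (w.adicCompletion K') D.l e i sw ∧
        ¬ T6.IsNormFrom D.l i sw (locG305 v γ)

/-- **NODE C2.7.13 = FACT-UP (the factorisation upstairs, with local matching).**  See the
header, step 6.  The constant `c'_G` depends on `D`, `ι`, `μc`, `T₀`, `n`, `m` only.
Proof.  `β' = c_T⁻¹ 1_{Out_{S'}} ∏_{v ∈ S} β'_v ∏_{v ∣ ∞} β'_v`: at an inert or ramified `v` a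
continuous cut-off function `β'_v` on `GL₂(K'_w)` for the twisted centraliser with the image of
`μt_v` (normalised: `i⁻¹(T'^c) = T^c`); at a split `v` and at the infinite places
`β'_v(y) = β_v(y_{w₀})` in the coordinates of `K_v`.  Cut-off property: `IsTorLinked305`,
`IsTorConst305`, the support upstairs (`helper159`: `goodUnit_split159`, `GoodUnitTw.lean`).
Integral: `HaarSplitC305 K'` (levels `n`), Fubini grouped by the places of `K`
(`SigmaLocC305`: `(σ y)_w = s(y_{σ⁻¹ w})`), and the LOCAL EQUALITIES `I'_v = I_v`: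
* inert/ramified: `T6.OrbSumExC`, `T6.OrbSumIntC` on both sides, `LocHyp305.inert`;
* split: the split integral identity for general `l` (helper159 `iterL_eq159`, helper584
  `iterInt_eq_rconv584`), `LocHyp305.split` (`T6.IsConvProd` is the convolution for the measure
  with `vol U = 1`);
* infinite: the same with `LocHyp305.arch`; `(r'^j)^l`-component `= r^j`-component
  (`t'^l = t`), complex conjugation preserves `μc` and the `Φ_w`. -/
def FactUpC305 : Prop :=
  T6.T6Out →
  ∀ D : CompData K K', IsCompData D → IsCycExt K K' D.l → D.l ≠ 2 → TotCplx K →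
    ∀ ι : Adl K →+* Adl K', IsAdeleBase305 D.s D.l ι →
    ∀ μc : @Measure (GL (Fin 2) ℂ) (borel _), @Measure.IsHaarMeasure _ _ _ (borel _) μc →
    ∀ (T₀ : Finset (HeightOneSpectrum (𝓞 K))), UnramOut305 (K' := K') T₀ →
    ∀ (n : HeightOneSpectrum (𝓞 K') → ℕ) (m : HeightOneSpectrum (𝓞 K) → ℕ),
      IsLevelAt305 T₀ n m →
    ∃ cG' : ℝ, 0 < cG' ∧
      ∀ (S : Finset (HeightOneSpectrum (𝓞 K))) (S' : Finset (HeightOneSpectrum (𝓞 K'))),
        T₀ ⊆ S → IsOver305 S S' →
      ∀ (φ₀ : ∀ w : HeightOneSpectrum (𝓞 K'), GL (Fin 2) (w.adicCompletion K') → ℂ)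
        (Φ : InfinitePlace K' → GL (Fin 2) ℂ → ℂ)
        (f₀ : ∀ v : HeightOneSpectrum (𝓞 K), GL (Fin 2) (v.adicCompletion K) → ℂ)
        (F : InfinitePlace K → GL (Fin 2) ℂ → ℂ),
        LocHyp305 D μc S n m φ₀ Φ f₀ F →
      ∀ (δ : GL (Fin 2) K') (γ : GL (Fin 2) K), T6.IsEll γ →
        D.s.normUpTo D.l δ = Matrix.GeneralLinearGroup.map (algebraMap K K') γ →
        GoodOut305 S γ → IntOut305 S' δ →
      ∀ (μT : @Measure (tA305 (T5.AdelicAut.id K) γ) (borel _))
        (μT' : @Measure (tA305 D.s δ) (borel _)),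
        @Measure.IsHaarMeasure _ _ _ (borel _) μT →
        @Measure.IsHaarMeasure _ _ _ (borel _) μT' →
        IsTorLinked305 ι D.s δ γ μT μT' →
      ∀ (L : LocData305 K γ) (cT : ℝ), IsLocData305 m L → 0 < cT → IsTorConst305 γ μT L cT →
        ∃ β' : G K' → ℝ,
          IsCutOn305 D.s δ μT' β'
              {x | T5.twTerm D.R'.r D.s (pure305 S' φ₀ Φ) δ x ≠ 0} ∧
            cutInt305 D.R'.r D.s (pure305 S' φ₀ Φ) δ D.R'.μ β'
              = ((cG' / cT : ℝ) : ℂ) * factVal305 D.R.r S L f₀ μc F

end TwoFieldsCut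

end Fermat.Agent.LT.T7.H305

end
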