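import Mathlib
import Fermat.Agent.LT.T7.H305.MatchCut

/-!
# Row LT, tower T7, node C2.7 `CutIntC305` (helper305): SECOND CUT -- the proved top

OFF-MAIN.  Complete proof, nothing assumed.

    cutIntC_of305 : T6.T6Out → GoodSetC305 K K' → UnitMatchC305 K K' → PureExtC305 K →
        PureExtC305 K' → LocMeasC305 → LocCutC305 → ArchMeasC305 → TorSplitC305 K →
        FactDownC305 K → FactUpC305 K K' → LocVanC305 → NonNormLocC305 K K' → CutIntC305 K K'

The constant of the node is `κ = c'_G / c_G` (`FactUpC305`, `FactDownC305`).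
-/

set_option autoImplicit false
set_option linter.unusedSectionVars false

open AutomorphicForm IsDedekindDomain NumberField MeasureTheory
open scoped ComplexConjugate

noncomputable section

namespace Fermat.Agent.LT.T7.H305

open Fermat.Agent.LT.H556 Fermat.Agent.LT.H556.A0 Fermat.Agent.LT.T7

attribute [local instance] Fermat.Agent.LT.T5.instMeasurableSpaceG

section Lemmas

/-- The twisted norm of length one. -/
theorem twNorm_one305 {R : Type} [CommRing R] (s : R ≃+* R) (δ : GL (Fin 2) R) :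
    T6.twNorm s 1 δ = δ := by
  change δ * T6.glAut s 1 = δ
  rw [map_one, mul_one]

/-- The discriminant commutes with ring homomorphisms. -/
theorem disc_map305 {R R' : Type} [CommRing R] [CommRing R'] (f : R →+* R')
    (γ : GL (Fin 2) R) :
    T6.disc (Matrix.GeneralLinearGroup.map f γ) = f (T6.disc γ) := by
  have h1 : ((Matrix.GeneralLinearGroup.map f γ : GL (Fin 2) R') : Matrix (Fin 2) (Fin 2) R')
      = (γ : Matrix (Fin 2) (Fin 2) R).map f := rfl
  unfold T6.disc
  rw [h1]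
  have h2 : ((γ : Matrix (Fin 2) (Fin 2) R).map f).trace
      = f (γ : Matrix (Fin 2) (Fin 2) R).trace := by
    simp [Matrix.trace, Matrix.diag]
  have h3 : ((γ : Matrix (Fin 2) (Fin 2) R).map f).det
      = f (γ : Matrix (Fin 2) (Fin 2) R).det := by
    simp [Matrix.det_fin_two]
  rw [h2, h3, map_sub, map_pow, map_mul]
  congr 2
  exact (map_ofNat f 4).symm

theorem isReg_map305 {R R' : Type} [CommRing R] [CommRing R'] (f : R →+* R')
    {γ : GL (Fin 2) R} (h : T6.IsReg γ) : T6.IsReg (Matrix.GeneralLinearGroup.map f γ) := by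
  unfold T6.IsReg at h ⊢
  rw [disc_map305]
  exact h.map f

variable {K : Type} [Field K] [NumberField K]

theorem isReg_locG305 {γ : GL (Fin 2) K} (h : T6.IsEll γ) (v : HeightOneSpectrum (𝓞 K)) :
    T6.IsReg (locG305 v γ) := isReg_map305 _ h.1

theorem isReg_archG305 {γ : GL (Fin 2) K} (h : T6.IsEll γ) (w : InfinitePlace K) :
    T6.IsReg (archG305 w γ) := by
  have h1 : archG305 w γ
      = Matrix.GeneralLinearGroup.map ((T5.infHom w).comp (algebraMap K (Adl K))) γ := by
    apply Units.ext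
    ext a b
    rfl
  rw [h1]
  exact isReg_map305 _ h.1

/-- **LOCAL DATA EXIST.** -/
theorem exists_locData305 (hT6 : T6.T6Out) (hmeas : LocMeasC305) (hcut : LocCutC305)
    (harch : ArchMeasC305) (m : HeightOneSpectrum (𝓞 K) → ℕ) {γ : GL (Fin 2) K}
    (hell : T6.IsEll γ) : ∃ L : LocData305 K γ, IsLocData305 m L := by
  have hloc : T6.InstLocalC := hT6.2.2.2.2.2.1
  have hreg : ∀ v : HeightOneSpectrum (𝓞 K),
      T6.IsReg (T6.twNorm (RingEquiv.refl (v.adicCompletion K)) 1 (locG305 v γ)) := fun v => by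
    rw [twNorm_one305]; exact isReg_locG305 hell v
  have h1 : ∀ v : HeightOneSpectrum (𝓞 K),
      ∃ μ : @Measure (GL (Fin 2) (v.adicCompletion K)) (borel _), IsLocHaar305 (m v) μ :=
    fun v => (hmeas (v.adicCompletion K) _ (hloc K v)).1 (m v)
  have h2 : ∀ v : HeightOneSpectrum (𝓞 K),
      ∃ μT : @Measure (T6.twCentSub (T6.glAut (RingEquiv.refl (v.adicCompletion K)))
          (locG305 v γ)) (borel _),
        IsLocTor305 (RingEquiv.refl (v.adicCompletion K)) (locG305 v γ) μT :=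
    fun v => (hmeas (v.adicCompletion K) _ (hloc K v)).2 1 (RingEquiv.refl _)
      (fun _ => rfl) Nat.one_pos (fun _ => rfl) (locG305 v γ) (hreg v)
  choose μv hμv using h1
  choose μt hμt using h2
  have h3 : ∀ v : HeightOneSpectrum (𝓞 K), ∃ β : GL (Fin 2) (v.adicCompletion K) → ℝ,
      IsLocCut305 (RingEquiv.refl (v.adicCompletion K)) (locG305 v γ) (μt v) β :=
    fun v => hcut (v.adicCompletion K) _ (hloc K v) 1 (RingEquiv.refl _)
      (fun _ => rfl) Nat.one_pos (fun _ => rfl) (locG305 v γ) (hreg v) (μt v) (hμt v).1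
  choose βv hβv using h3
  have h4 : ∀ w : InfinitePlace K, ∃ μT : @Measure (cent305 (archG305 w γ)) (borel _),
      @Measure.IsHaarMeasure _ _ _ (borel _) μT :=
    fun w => (harch (archG305 w γ) (isReg_archG305 hell w)).1
  choose μtc hμtc using h4
  have h5 : ∀ w : InfinitePlace K, ∃ β : GL (Fin 2) ℂ → ℝ,
      IsCut305 (archG305 w γ) (μtc w) β :=
    fun w => (harch (archG305 w γ) (isReg_archG305 hell w)).2 (μtc w) (hμtc w)
  choose βc hβc using h5
  exact ⟨⟨μv, μt, βv, μtc, βc⟩, ⟨hμv, hμt, hβv, hμtc, hβc⟩⟩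

theorem pure_ext_fun305 (hp : PureExtC305 K) {T S : Finset (HeightOneSpectrum (𝓞 K))}
    (hTS : T ⊆ S)
    (f₀ : ∀ v : HeightOneSpectrum (𝓞 K), GL (Fin 2) (v.adicCompletion K) → ℂ)
    (F : InfinitePlace K → GL (Fin 2) ℂ → ℂ) :
    pure305 S (ext305 T f₀) F = pure305 T f₀ F :=
  funext fun h => hp T S hTS f₀ F h

end Lemmas

variable {K K' : Type} [Field K] [NumberField K] [Field K'] [NumberField K'] [Algebra K K']

/-- The places over `T` are among the places over `S ⊇ T`. -/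
theorem over_mono305 {T S : Finset (HeightOneSpectrum (𝓞 K))}
    {T' S' : Finset (HeightOneSpectrum (𝓞 K'))} (hTS : T ⊆ S) (hT : IsOver305 T T')
    (hS : IsOver305 S S') : T' ⊆ S' := by
  intro w hw
  obtain ⟨v, hv, hvw⟩ := (hT w).1 hw
  exact (hS w).2 ⟨v, hTS hv, hvw⟩

/-- **THE TOP OF THE SECOND CUT.** -/
theorem cutIntC_of305 (hT6 : T6.T6Out) (hgood : GoodSetC305 K K')
    (hunit : UnitMatchC305 K K') (hpure : PureExtC305 K) (hpure' : PureExtC305 K')
    (hmeas : LocMeasC305) (hcut : LocCutC305) (harch : ArchMeasC305)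
    (htor : TorSplitC305 K) (hdown : FactDownC305 K) (hup : FactUpC305 K K')
    (hvan : LocVanC305) (hnn : NonNormLocC305 K K') : CutIntC305 K K' := by
  classical
  intro D hD hcyc hl2 htc ι hι μc hμc T₀ hun n m hlev
  obtain ⟨cG, hcG, hdn⟩ := hdown htc D.R hD.frame μc hμc T₀ m hlev.1
  obtain ⟨cG', hcG', hupp⟩ := hup hT6 D hD hcyc hl2 htc ι hι μc hμc T₀ hun n m hlev
  have hloc : T6.InstLocalC := hT6.2.2.2.2.2.1
  refine ⟨((cG' / cG : ℝ) : ℂ), ?_, ?_⟩
  · exact_mod_cast (div_pos hcG' hcG).ne'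
  intro T T' hT₀T hTT' φ₀ Φ f₀ F hlocT
  constructor
  · -- the norms
    intro δ γ hell hN μT μT' hμT hμT' hlink
    obtain ⟨S, S', hTS, hSS', hgγ, hiδ⟩ := hgood γ δ hell T
    have hlocS := hunit hT6 D hD hcyc hl2 htc μc hμc T₀ hun n m hlev T S T' S' hT₀T hTS hTT'
      hSS' φ₀ Φ f₀ F hlocT
    obtain ⟨L, hL⟩ := exists_locData305 hT6 hmeas hcut harch m hell
    obtain ⟨cT, hcT, hTC⟩ := htor htc γ hell μT hμT L hL.tor hL.torc
    obtain ⟨hβ, hval⟩ := hdn S (hT₀T.trans hTS) (ext305 T f₀) F hlocS.inv_down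
      (fun w => ⟨(hlocS.arch_down w).1, (hlocS.arch_down w).2.1⟩) γ hell hgγ μT hμT L cT hL hcT
      hTC
    obtain ⟨β', hβ', hval'⟩ := hupp S S' (hT₀T.trans hTS) hSS' (ext305 T' φ₀) Φ (ext305 T f₀) F
      hlocS δ γ hell hN hgγ hiδ μT μT' hμT hμT' hlink L cT hL hcT hTC
    rw [pure_ext_fun305 hpure hTS] at hβ hval
    rw [pure_ext_fun305 hpure' (over_mono305 hTS hTT' hSS')] at hβ' hval'
    refine ⟨β', prodCut305 S cT L, hβ', hβ, ?_⟩
    have h1 : cG ≠ 0 := hcG.ne'
    have h2 : cT ≠ 0 := hcT.ne'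
    have h3 : cG' / cT = cG' / cG * (cG / cT) := by field_simp
    rw [hval', hval, ← mul_assoc, ← Complex.ofReal_mul, ← h3]
  · -- the elements which are not norms
    intro γ hell hnot μT hμT
    obtain ⟨v, w, e, i, sw, hvw, huniq, hi, hsw, hext, hnorm⟩ :=
      hnn hT6 D hD hcyc hl2 htc γ hell hnot
    obtain ⟨S, S', hTS, hSS', hgγ, -⟩ := hgood γ 1 hell (insert v T)
    have hTS' : T ⊆ S := (Finset.subset_insert v T).trans hTS
    have hvS : v ∈ S := hTS (Finset.mem_insert_self v T)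
    have hlocS := hunit hT6 D hD hcyc hl2 htc μc hμc T₀ hun n m hlev T S T' S' hT₀T hTS' hTT'
      hSS' φ₀ Φ f₀ F hlocT
    obtain ⟨L, hL⟩ := exists_locData305 hT6 hmeas hcut harch m hell
    obtain ⟨cT, hcT, hTC⟩ := htor htc γ hell μT hμT L hL.tor hL.torc
    obtain ⟨hβ, hval⟩ := hdn S (hT₀T.trans hTS') (ext305 T f₀) F hlocS.inv_down
      (fun w => ⟨(hlocS.arch_down w).1, (hlocS.arch_down w).2.1⟩) γ hell hgγ μT hμT L cT hL hcT
      hTC
    rw [pure_ext_fun305 hpure hTS'] at hβ hval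
    refine ⟨prodCut305 S cT L, hβ, ?_⟩
    rw [hval]
    have hzero : locInt305 (L.μv v) (L.βv v) (ext305 T f₀ v) (locG305 v γ) = 0 := by
      refine hvan hT6 (v.adicCompletion K) _ (hloc K v) (m v) (ext305 T f₀ v)
        (hlocS.inv_down v hvS).1 (hlocS.inv_down v hvS).2 (locG305 v γ) (isReg_locG305 hell v)
        ?_ (L.μv v) (hL.haar v) (L.μt v) (hL.tor v) (L.βv v) (hL.cut v)
      intro c' hc'
      exact ((hlocS.inert v hvS w hvw huniq e i sw hi hsw hext).2 (locG305 v γ) c'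
        (isReg_locG305 hell v) hnorm hc')
    have hfact : factVal305 D.R.r S L (ext305 T f₀) μc F = 0 := by
      unfold factVal305
      rw [Finset.prod_eq_zero hvS hzero]
      simp
    rw [hfact, mul_zero]

end Fermat.Agent.LT.T7.H305

end
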