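import Mathlib
import Fermat.Agent.LT.T7.H305.MatchSpec

/-!
# Row LT, tower T7, field `matched` of `SupplyC` (deputy helper305): FIRST CUT -- the proved top

OFF-MAIN.  Complete proof, nothing assumed.

    globMatch_of305 : IotaC305 K K' → UnfoldC305 K → UnfoldC305 K' → TorCommC305 K →
        TorCommC305 K' → TwistRepC305 K' → EllRegC305 K K' → TorHaarC305 K → TorMeasC305 K K' →
        TorCompC305 K K' → CutIntC305 K K' → GlobMatchC305 K K'

The constant of the node is `κ = κ₀ / l`, `κ₀` the constant of `CutIntC305`.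
-/

set_option autoImplicit false

open AutomorphicForm IsDedekindDomain NumberField MeasureTheory
open scoped ComplexConjugate

noncomputable section

namespace Fermat.Agent.LT.T7.H305

open Fermat.Agent.LT.H556 Fermat.Agent.LT.H556.A0 Fermat.Agent.LT.T7

attribute [local instance] Fermat.Agent.LT.T5.instMeasurableSpaceG

section Lemmas

variable {K : Type} [Field K] [NumberField K]

theorem twTerm_const_mul305 (r : G K) (s : T5.AdelicAut K) (κ : ℂ) (g : G K → ℂ)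
    (δ : GL (Fin 2) K) (x : G K) :
    T5.twTerm r s (fun h => κ * g h) δ x = κ * T5.twTerm r s g δ x := by
  unfold T5.twTerm T5.flat
  exact tsum_mul_left

theorem cutInt_const_mul305 (r : G K) (s : T5.AdelicAut K) (κ : ℂ) (g : G K → ℂ)
    (δ : GL (Fin 2) K) (μ : Measure (G K)) (β : G K → ℝ) :
    cutInt305 r s (fun h => κ * g h) δ μ β = κ * cutInt305 r s g δ μ β := by
  unfold cutInt305
  rw [← integral_const_mul]
  refine integral_congr_ae (Filter.Eventually.of_forall fun y => ?_)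
  simp only [twTerm_const_mul305]
  ring

theorem supp_const_mul305 (r : G K) (s : T5.AdelicAut K) {κ : ℂ} (hκ : κ ≠ 0) (g : G K → ℂ)
    (δ : GL (Fin 2) K) :
    {x | T5.twTerm r s (fun h => κ * g h) δ x ≠ 0} = {x | T5.twTerm r s g δ x ≠ 0} := by
  ext x
  simp only [Set.mem_setOf_eq, twTerm_const_mul305, ne_eq, mul_eq_zero, hκ, false_or]

end Lemmas

variable {K K' : Type} [Field K] [NumberField K] [Field K'] [NumberField K'] [Algebra K K']

/-- **THE TOP OF THE FIRST CUT**: global matching from local matching. -/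
theorem globMatch_of305 (hι : IotaC305 K K') (hU : UnfoldC305 K) (hU' : UnfoldC305 K')
    (hTc : TorCommC305 K) (hTc' : TorCommC305 K')
    (hRep : TwistRepC305 K') (hEll : EllRegC305 K K') (hHaar : TorHaarC305 K)
    (hMeas : TorMeasC305 K K') (hComp : TorCompC305 K K') (hCut : CutIntC305 K K') :
    GlobMatchC305 K K' := by
  intro D hD hcyc hl hcplx μc hμc T₀ hram n m hlev
  obtain ⟨ι, hιD⟩ := hι D hD hcyc hcplx
  obtain ⟨κ₀, hκ₀, hC⟩ := hCut D hD hcyc hl hcplx ι hιD μc hμc T₀ hram n m hlev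
  have hl0 : ((D.l : ℕ) : ℂ) ≠ 0 := by
    exact_mod_cast hcyc.prime.ne_zero
  refine ⟨κ₀ / (D.l : ℂ), div_ne_zero hκ₀ hl0, ?_⟩
  intro T T' hTT hT' φ₀ Φ f₀ F hloc φ' f hφ' hf htφ' htf
  obtain ⟨hnorm, hnon⟩ := hC T T' hTT hT' φ₀ Φ f₀ F hloc
  have eφ' : φ' = pure305 T' φ₀ Φ := funext hφ'
  have ef : f = fun h => κ₀ / (D.l : ℂ) * pure305 T f₀ F h := funext hf
  have hκ : κ₀ / (D.l : ℂ) ≠ 0 := div_ne_zero hκ₀ hl0
  constructor
  · intro δ γ hγ hN Fδ Fγ hFδ hFγ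
    obtain ⟨δ₁, Fδ₁, hN₁, hFδ₁, hint⟩ :=
      hRep D.R' hD.frame' D.s D.l D.k D.𝔑 hD.cyc hD.aut δ
        (Matrix.GeneralLinearGroup.map (algebraMap K K') γ) hN Fδ hFδ
    rw [← hint φ']
    obtain ⟨μT, μT', hμT, hμT', hlink⟩ := hMeas D hD hcyc hcplx ι hιD δ₁ γ hγ hN₁
    obtain ⟨β', β, hβ', hβ, hCI⟩ := hnorm δ₁ γ hγ hN₁ μT μT' hμT hμT' hlink
    have hreg := hEll D hD γ hγ
    have e1 := hU' D.R' hD.frame' D.s D.l D.k D.𝔑 hD.cyc hD.aut δ₁
      (by rw [hN₁]; exact hreg.1) φ' htφ' Fδ₁ hFδ₁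
      (hTc' D.R' hD.frame' D.s D.l D.k D.𝔑 hD.cyc hD.aut δ₁ (by rw [hN₁]; exact hreg.1))
      μT' hμT' β' (by rw [eφ']; exact hβ')
    have e2 := hU D.R hD.frame (T5.AdelicAut.id K) 1 ⊤ D.𝔫 T5.isCyclicOfDegree_id
      (T5.autPreserves_id D.𝔫 D.R.μ D.R.r) γ hreg.2 f htf Fγ hFγ
      (hTc D.R hD.frame (T5.AdelicAut.id K) 1 ⊤ D.𝔫 T5.isCyclicOfDegree_id
        (T5.autPreserves_id D.𝔫 D.R.μ D.R.r) γ hreg.2)
      μT hμT β
      (by rw [ef, supp_const_mul305 _ _ hκ]; exact hβ)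
    have e3 := hComp D hD hcyc hcplx ι hιD δ₁ γ hγ hN₁ Fδ₁ Fγ hFδ₁ hFγ μT μT' hμT hμT' hlink
    rw [e1, e2, e3, eφ', hCI, ef, cutInt_const_mul305, ENNReal.toReal_mul]
    simp only [ENNReal.toReal_natCast]
    push_cast
    field_simp
  · intro γ hγ hno Fγ hFγ
    obtain ⟨μT, hμT⟩ := hHaar (T5.AdelicAut.id K) γ
    obtain ⟨β, hβ, hCI⟩ := hnon γ hγ hno μT hμT
    have hreg := hEll D hD γ hγ
    have e2 := hU D.R hD.frame (T5.AdelicAut.id K) 1 ⊤ D.𝔫 T5.isCyclicOfDegree_id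
      (T5.autPreserves_id D.𝔫 D.R.μ D.R.r) γ hreg.2 f htf Fγ hFγ
      (hTc D.R hD.frame (T5.AdelicAut.id K) 1 ⊤ D.𝔫 T5.isCyclicOfDegree_id
        (T5.autPreserves_id D.𝔫 D.R.μ D.R.r) γ hreg.2)
      μT hμT β
      (by rw [ef, supp_const_mul305 _ _ hκ]; exact hβ)
    rw [e2, ef, cutInt_const_mul305, hCI]
    simp

end Fermat.Agent.LT.T7.H305

end
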