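import Mathlib
import Fermat.Agent.LT.T7.H305.MatchCut
import Fermat.Agent.LT.T7.H893.SupplyConstrSpec2
import Fermat.Agent.LT.T7.H340.FactUpSpec

/-!
# Row LT, tower T7, station C2 (helper305): THE MATCHING THEOREM FOR `H893.LocHyp893` -- Spec

OFF-MAIN.  Definitions and frozen Props only (the proved tops are `Match893Top.lean`).  No hole,
nothing assumed.  ADDITIVE (new names only, suffix `305b`).  Vocabulary: `MatchSpec.lean` v2,
`MatchCut.lean` (helper305), `T7/H893/SupplyConstrSpec2.lean` (helper893@747c1bdc4: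
`LocHyp893`, `GlobMatchC893`), `T7/H340/FactUpSpec.lean` (helper340@b1879b9c4), byte-identical.

## WHY

`H305.LocHyp305.split` asks the convolution identity for EVERY enumeration of the places over a
split place (all rotations); at the BAD split places this is not satisfiable (referees
helper248, helper950; helper893 fifth cut v2).  `H893.LocHyp893` asks it for ONE enumeration.
The matching theorem for `LocHyp893` is `H893.GlobMatchC893`.  Only the SPLIT clause changes:

    globMatch_of305b : (leaves of the first cut) → CutIntC305b K K' → H893.GlobMatchC893 K K'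
    cutIntC_of305b   : (leaves of the second cut) → UnitMatchC305b K K' → FactUpC305b K K'
                         → CutIntC305b K K'
    factUpC_of305b   : UpFactC305b K K' → H340.LocEqInertC340 K K' → LocEqSplitC305b K K'
                         → H340.LocEqArchC340 K K' → FactUpC305b K K'

* `CutIntC305b`, `UnitMatchC305b`, `FactUpC305b`, `UpFactC305b`: the Props `CutIntC305`,
  `UnitMatchC305`, `FactUpC305`, `H340.UpFactC340` with `LocHyp893` in place of `LocHyp305`
  (same proofs: the proofs use the clauses `inv_up`, `inv_down`, `arch_up`, `arch_down`,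
  `inert`, `arch`, and at a split place the ONE enumeration of the hypothesis).
* `IsSplitVal305b`: `J` is the split integral upstairs FOR AN ENUMERATION FOR WHICH THE
  CONVOLUTION IDENTITY HOLDS (and the levels agree).  `UpFactC305b` takes the enumeration of
  `LocHyp893.split`; the value of the split integral does not depend on the enumeration, but
  this is not needed.
* `LocEqSplitC305b`: `J = I_v` for such a `J` (the proof of `H340.LocEqSplitC340`, with the
  enumeration of `IsSplitVal305b`).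
* The local equalities at the inert places and at the infinite places are the CLOSED leaves of
  helper340 (`LocHyp305` for the set `{v}`, resp. `∅`, follows from `LocHyp893`: the split
  clause is void).
-/

set_option autoImplicit false

open AutomorphicForm IsDedekindDomain NumberField MeasureTheory
open scoped ComplexConjugate

noncomputable section

namespace Fermat.Agent.LT.T7.H305

open Fermat.Agent.LT.H556 Fermat.Agent.LT.H556.A0 Fermat.Agent.LT.T7

attribute [local instance] Fermat.Agent.LT.T5.instMeasurableSpaceG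

section Val

variable {K K' : Type} [Field K] [NumberField K] [Field K'] [NumberField K'] [Algebra K K']

/-- `J` is THE LOCAL TWISTED INTEGRAL UPSTAIRS at the SPLIT place `v`, in the coordinates of
`K_v`, with the local Haar measure and the local cut-off function DOWNSTAIRS, for an
enumeration of the places over `v` for which THE LEVELS AGREE AND THE CONVOLUTION IDENTITY
HOLDS. -/
def IsSplitVal305b (D : CompData K K')
    (n : HeightOneSpectrum (𝓞 K') → ℕ) (m : HeightOneSpectrum (𝓞 K) → ℕ)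
    (φ₀ : ∀ w : HeightOneSpectrum (𝓞 K'), GL (Fin 2) (w.adicCompletion K') → ℂ)
    (f₀ : ∀ v : HeightOneSpectrum (𝓞 K), GL (Fin 2) (v.adicCompletion K) → ℂ)
    (δ : GL (Fin 2) K') {γ : GL (Fin 2) K} (L : LocData305 K γ)
    (v : HeightOneSpectrum (𝓞 K)) (J : ℂ) : Prop :=
  ∃ (hl : 0 < D.l) (w : ℕ → HeightOneSpectrum (𝓞 K'))
    (i : ∀ j : ℕ, v.adicCompletion K ≃+* (w j).adicCompletion K'),
    (∀ j : ℕ, PlaceOver K K' v (w j)) ∧
    (∀ j : ℕ, T5.PlaceRel D.s (w (j + 1)) (w j)) ∧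
    (∀ j : ℕ, 0 < j → j < D.l → w j ≠ w 0) ∧
    (∀ (j : ℕ) (x : K), i j (algebraMap K (v.adicCompletion K) x)
      = algebraMap K' ((w j).adicCompletion K') (algebraMap K K' x)) ∧
    (∀ (j : ℕ) (x : v.adicCompletion K), Valued.v (i j x) = Valued.v x) ∧
    (∀ j : ℕ, n (w j) = m v) ∧
    T6.IsConvProd (T6.InU (m v)) D.l
      (fun j g => φ₀ (w j)
        (Matrix.GeneralLinearGroup.map ((i j : v.adicCompletion K ≃+* _) :
          v.adicCompletion K →+* (w j).adicCompletion K') g))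
      (f₀ v) ∧
    J = H340.splitInt340 D.l hl (L.μv v) (L.βv v)
        (fun j g => φ₀ (w j)
          (Matrix.GeneralLinearGroup.map ((i j : v.adicCompletion K ≃+* _) :
            v.adicCompletion K →+* (w j).adicCompletion K') g))
        (fun j => Matrix.GeneralLinearGroup.map
          (((i j).symm : (w j).adicCompletion K' ≃+* _) :
            (w j).adicCompletion K' →+* v.adicCompletion K) (locG305 (w j) δ))

end Val

section Props

variable (K K' : Type) [Field K] [NumberField K] [Field K'] [NumberField K'] [Algebra K K']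

/-- **NODE C2.7b = CUT-INT for `LocHyp893`.**  `CutIntC305` with `H893.LocHyp893`. -/
def CutIntC305b : Prop :=
  ∀ D : CompData K K', IsCompData D → IsCycExt K K' D.l → D.l ≠ 2 → TotCplx K →
    ∀ ι : Adl K →+* Adl K', IsAdeleBase305 D.s D.l ι →
    ∀ μc : @Measure (GL (Fin 2) ℂ) (borel _), @Measure.IsHaarMeasure _ _ _ (borel _) μc →
    ∀ (T₀ : Finset (HeightOneSpectrum (𝓞 K))), UnramOut305 (K' := K') T₀ →
    ∀ (n : HeightOneSpectrum (𝓞 K') → ℕ) (m : HeightOneSpectrum (𝓞 K) → ℕ),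
      IsLevelAt305 T₀ n m →
    ∃ κ : ℂ, κ ≠ 0 ∧
      ∀ (T : Finset (HeightOneSpectrum (𝓞 K))) (T' : Finset (HeightOneSpectrum (𝓞 K'))),
        T₀ ⊆ T → IsOver305 T T' →
      ∀ (φ₀ : ∀ w : HeightOneSpectrum (𝓞 K'), GL (Fin 2) (w.adicCompletion K') → ℂ)
        (Φ : InfinitePlace K' → GL (Fin 2) ℂ → ℂ)
        (f₀ : ∀ v : HeightOneSpectrum (𝓞 K), GL (Fin 2) (v.adicCompletion K) → ℂ)
        (F : InfinitePlace K → GL (Fin 2) ℂ → ℂ),
        H893.LocHyp893 D μc T n m φ₀ Φ f₀ F →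
        (∀ (δ : GL (Fin 2) K') (γ : GL (Fin 2) K), T6.IsEll γ →
          D.s.normUpTo D.l δ = Matrix.GeneralLinearGroup.map (algebraMap K K') γ →
          ∀ (μT : @Measure (tA305 (T5.AdelicAut.id K) γ) (borel _))
            (μT' : @Measure (tA305 D.s δ) (borel _)),
            @Measure.IsHaarMeasure _ _ _ (borel _) μT →
            @Measure.IsHaarMeasure _ _ _ (borel _) μT' →
            IsTorLinked305 ι D.s δ γ μT μT' →
            ∃ β' : G K' → ℝ, ∃ β : G K → ℝ,
              IsCutOn305 D.s δ μT' β'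
                {x | T5.twTerm D.R'.r D.s (pure305 T' φ₀ Φ) δ x ≠ 0} ∧
              IsCutOn305 (T5.AdelicAut.id K) γ μT β
                {x | T5.twTerm D.R.r (T5.AdelicAut.id K) (pure305 T f₀ F) γ x ≠ 0} ∧
              cutInt305 D.R'.r D.s (pure305 T' φ₀ Φ) δ D.R'.μ β'
                = κ * cutInt305 D.R.r (T5.AdelicAut.id K) (pure305 T f₀ F) γ D.R.μ β) ∧
        ∀ γ : GL (Fin 2) K, T6.IsEll γ → (¬ ∃ δ : GL (Fin 2) K', IsNormOf D δ γ) →
          ∀ μT : @Measure (tA305 (T5.AdelicAut.id K) γ) (borel _),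
            @Measure.IsHaarMeasure _ _ _ (borel _) μT →
            ∃ β : G K → ℝ,
              IsCutOn305 (T5.AdelicAut.id K) γ μT β
                {x | T5.twTerm D.R.r (T5.AdelicAut.id K) (pure305 T f₀ F) γ x ≠ 0} ∧
              cutInt305 D.R.r (T5.AdelicAut.id K) (pure305 T f₀ F) γ D.R.μ β = 0

/-- **LEAF C2.7.11b = UNIT-MATCH for `LocHyp893`.**  `UnitMatchC305` with `H893.LocHyp893`.
Proof.  The proof of `UnitMatchC305` (helper195 `unitMatchC195`); `split` at `v ∈ T`: the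
enumeration of the hypothesis; at a split `v ∈ S \ T`: an enumeration exists (`l` places over
`v`, in the order of the orbit of `σ`; `T6.InstSplitC`), unit components, levels `0`. -/
def UnitMatchC305b : Prop :=
  T6.T6Out →
  ∀ D : CompData K K', IsCompData D → IsCycExt K K' D.l → D.l ≠ 2 → TotCplx K →
    ∀ μc : @Measure (GL (Fin 2) ℂ) (borel _), @Measure.IsHaarMeasure _ _ _ (borel _) μc →
    ∀ (T₀ : Finset (HeightOneSpectrum (𝓞 K))), UnramOut305 (K' := K') T₀ →
    ∀ (n : HeightOneSpectrum (𝓞 K') → ℕ) (m : HeightOneSpectrum (𝓞 K) → ℕ),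
      IsLevelAt305 T₀ n m →
    ∀ (T S : Finset (HeightOneSpectrum (𝓞 K))) (T' S' : Finset (HeightOneSpectrum (𝓞 K'))),
      T₀ ⊆ T → T ⊆ S → IsOver305 T T' → IsOver305 S S' →
    ∀ (φ₀ : ∀ w : HeightOneSpectrum (𝓞 K'), GL (Fin 2) (w.adicCompletion K') → ℂ)
      (Φ : InfinitePlace K' → GL (Fin 2) ℂ → ℂ)
      (f₀ : ∀ v : HeightOneSpectrum (𝓞 K), GL (Fin 2) (v.adicCompletion K) → ℂ)
      (F : InfinitePlace K → GL (Fin 2) ℂ → ℂ),
      H893.LocHyp893 D μc T n m φ₀ Φ f₀ F →
      H893.LocHyp893 D μc S n m (ext305 T' φ₀) Φ (ext305 T f₀) F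

/-- **NODE C2.7.13b = FACT-UP for `LocHyp893`.**  `FactUpC305` with `H893.LocHyp893`. -/
def FactUpC305b : Prop :=
  T6.T6Out →
  ∀ D : CompData K K', IsCompData D → IsCycExt K K' D.l → D.l ≠ 2 → TotCplx K →
    ∀ ι : Adl K →+* Adl K', IsAdeleBase305 D.s D.l ι →
    ∀ μc : @Measure (GL (Fin 2) ℂ) (borel _), @Measure.IsHaarMeasure _ _ _ (borel _) μc →
    ∀ (T₀ : Finset (HeightOneSpectrum (𝓞 K))), UnramOut305 (K' := K') T₀ →
    ∀ (n : HeightOneSpectrum (𝓞 K') → ℕ) (m : HeightOneSpectrum (𝓞 K) → ℕ),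
      IsLevelAt305 T₀ n m →
    ∃ cG' : ℝ, 0 < cG' ∧
      ∀ (S : Finset (HeightOneSpectrum (𝓞 K))) (S' : Finset (HeightOneSpectrum (𝓞 K'))),
        T₀ ⊆ S → IsOver305 S S' →
      ∀ (φ₀ : ∀ w : HeightOneSpectrum (𝓞 K'), GL (Fin 2) (w.adicCompletion K') → ℂ)
        (Φ : InfinitePlace K' → GL (Fin 2) ℂ → ℂ)
        (f₀ : ∀ v : HeightOneSpectrum (𝓞 K), GL (Fin 2) (v.adicCompletion K) → ℂ)
        (F : InfinitePlace K → GL (Fin 2) ℂ → ℂ),
        H893.LocHyp893 D μc S n m φ₀ Φ f₀ F →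
      ∀ (δ : GL (Fin 2) K') (γ : GL (Fin 2) K), T6.IsEll γ →
        D.s.normUpTo D.l δ = Matrix.GeneralLinearGroup.map (algebraMap K K') γ →
        GoodOut305 S γ → IntOut305 S' δ →
      ∀ (μT : @Measure (tA305 (T5.AdelicAut.id K) γ) (borel _))
        (μT' : @Measure (tA305 D.s δ) (borel _)),
        @Measure.IsHaarMeasure _ _ _ (borel _) μT →
        @Measure.IsHaarMeasure _ _ _ (borel _) μT' →
        IsTorLinked305 ι D.s δ γ μT μT' →
      ∀ (L : LocData305 K γ) (cT : ℝ), IsLocData305 m L → 0 < cT → IsTorConst305 γ μT L cT →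
        ∃ β' : G K' → ℝ,
          IsCutOn305 D.s δ μT' β'
              {x | T5.twTerm D.R'.r D.s (pure305 S' φ₀ Φ) δ x ≠ 0} ∧
            cutInt305 D.R'.r D.s (pure305 S' φ₀ Φ) δ D.R'.μ β'
              = ((cG' / cT : ℝ) : ℂ) * factVal305 D.R.r S L f₀ μc F

/-- **NODE C2.7.13.1b = UP-FACT for `LocHyp893`.**  `H340.UpFactC340` with `H893.LocHyp893`; at
the split places the value `J v` is the split integral for the enumeration of
`LocHyp893.split` (`IsSplitVal305b`). -/
def UpFactC305b : Prop :=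
  T6.T6Out →
  ∀ D : CompData K K', IsCompData D → IsCycExt K K' D.l → D.l ≠ 2 → TotCplx K →
    ∀ ι : Adl K →+* Adl K', IsAdeleBase305 D.s D.l ι →
    ∀ μc : @Measure (GL (Fin 2) ℂ) (borel _), @Measure.IsHaarMeasure _ _ _ (borel _) μc →
    ∀ (T₀ : Finset (HeightOneSpectrum (𝓞 K))), UnramOut305 (K' := K') T₀ →
    ∀ (n : HeightOneSpectrum (𝓞 K') → ℕ) (m : HeightOneSpectrum (𝓞 K) → ℕ),
      IsLevelAt305 T₀ n m →
    ∃ cG' : ℝ, 0 < cG' ∧
      ∀ (S : Finset (HeightOneSpectrum (𝓞 K))) (S' : Finset (HeightOneSpectrum (𝓞 K'))),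
        T₀ ⊆ S → IsOver305 S S' →
      ∀ (φ₀ : ∀ w : HeightOneSpectrum (𝓞 K'), GL (Fin 2) (w.adicCompletion K') → ℂ)
        (Φ : InfinitePlace K' → GL (Fin 2) ℂ → ℂ)
        (f₀ : ∀ v : HeightOneSpectrum (𝓞 K), GL (Fin 2) (v.adicCompletion K) → ℂ)
        (F : InfinitePlace K → GL (Fin 2) ℂ → ℂ),
        H893.LocHyp893 D μc S n m φ₀ Φ f₀ F →
      ∀ (δ : GL (Fin 2) K') (γ : GL (Fin 2) K), T6.IsEll γ →
        D.s.normUpTo D.l δ = Matrix.GeneralLinearGroup.map (algebraMap K K') γ →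
        GoodOut305 S γ → IntOut305 S' δ →
      ∀ (μT : @Measure (tA305 (T5.AdelicAut.id K) γ) (borel _))
        (μT' : @Measure (tA305 D.s δ) (borel _)),
        @Measure.IsHaarMeasure _ _ _ (borel _) μT →
        @Measure.IsHaarMeasure _ _ _ (borel _) μT' →
        IsTorLinked305 ι D.s δ γ μT μT' →
      ∀ (L : LocData305 K γ) (cT : ℝ), IsLocData305 m L → 0 < cT → IsTorConst305 γ μT L cT →
        ∃ (β' : G K' → ℝ) (J : HeightOneSpectrum (𝓞 K) → ℂ) (Jc : InfinitePlace K → ℤ → ℂ),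
          IsCutOn305 D.s δ μT' β'
              {x | T5.twTerm D.R'.r D.s (pure305 S' φ₀ Φ) δ x ≠ 0} ∧
            cutInt305 D.R'.r D.s (pure305 S' φ₀ Φ) δ D.R'.μ β'
              = ((cG' / cT : ℝ) : ℂ)
                * ∑' j : ℤ, (∏ v ∈ S, J v) * ∏ w : InfinitePlace K, Jc w j ∧
            (∀ v ∈ S, H340.IsInertVal340 D n φ₀ δ v (J v) ∨ IsSplitVal305b D n m φ₀ f₀ δ L v (J v)) ∧
            ∀ (w : InfinitePlace K) (j : ℤ), H340.IsArchVal340 D ι Φ δ L μc w j (Jc w j)

/-- **LEAF C2.7.13.3b = LOC-EQ-SPLIT for ONE enumeration.**  `H340.LocEqSplitC340` for the values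
`IsSplitVal305b` (the convolution identity for the enumeration of the value). -/
def LocEqSplitC305b : Prop :=
  T6.T6Out →
  ∀ D : CompData K K', IsCompData D → IsCycExt K K' D.l → D.l ≠ 2 → TotCplx K →
    ∀ (μc : @Measure (GL (Fin 2) ℂ) (borel _)) (S : Finset (HeightOneSpectrum (𝓞 K)))
      (n : HeightOneSpectrum (𝓞 K') → ℕ) (m : HeightOneSpectrum (𝓞 K) → ℕ)
      (φ₀ : ∀ w : HeightOneSpectrum (𝓞 K'), GL (Fin 2) (w.adicCompletion K') → ℂ)
      (Φ : InfinitePlace K' → GL (Fin 2) ℂ → ℂ)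
      (f₀ : ∀ v : HeightOneSpectrum (𝓞 K), GL (Fin 2) (v.adicCompletion K) → ℂ)
      (F : InfinitePlace K → GL (Fin 2) ℂ → ℂ),
      H893.LocHyp893 D μc S n m φ₀ Φ f₀ F →
    ∀ (δ : GL (Fin 2) K') (γ : GL (Fin 2) K), T6.IsEll γ →
      D.s.normUpTo D.l δ = Matrix.GeneralLinearGroup.map (algebraMap K K') γ →
    ∀ L : LocData305 K γ, IsLocData305 m L →
    ∀ v ∈ S, ∀ J : ℂ, IsSplitVal305b D n m φ₀ f₀ δ L v J →
      J = locInt305 (L.μv v) (L.βv v) (f₀ v) (locG305 v γ)

end Props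

end Fermat.Agent.LT.T7.H305

end
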