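import Mathlib
import Fermat.Agent.LT.T7.H305.Match893Spec
import Fermat.Agent.LT.T7.H305.MatchTop
import Fermat.Agent.LT.T7.H305.MatchCutTop

/-!
# Row LT, tower T7, station C2 (helper305): THE MATCHING THEOREM FOR `H893.LocHyp893` -- tops

OFF-MAIN.  Complete proofs, nothing assumed.

    globMatch_of305b : (leaves of the first cut) → CutIntC305b K K' → H893.GlobMatchC893 K K'
    cutIntC_of305b   : (leaves of the second cut) → UnitMatchC305b K K' → FactUpC305b K K'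
                         → CutIntC305b K K'
    factUpC_of305b   : UpFactC305b K K' → H340.LocEqInertC340 K K' → LocEqSplitC305b K K'
                         → H340.LocEqArchC340 K K' → FactUpC305b K K'
-/

set_option autoImplicit false
set_option linter.unusedSectionVars false

open AutomorphicForm IsDedekindDomain NumberField MeasureTheory
open scoped ComplexConjugate

noncomputable section

namespace Fermat.Agent.LT.T7.H305

open Fermat.Agent.LT.H556 Fermat.Agent.LT.H556.A0 Fermat.Agent.LT.T7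

attribute [local instance] Fermat.Agent.LT.T5.instMeasurableSpaceG

variable {K K' : Type} [Field K] [NumberField K] [Field K'] [NumberField K'] [Algebra K K']

/-- `LocHyp305` for the set `{v}`, `v` with ONE place over it, from `LocHyp893` (the split
clause is void). -/
theorem locHyp305_single305b {D : CompData K K'} {μc : @Measure (GL (Fin 2) ℂ) (borel _)}
    {S : Finset (HeightOneSpectrum (𝓞 K))}
    {n : HeightOneSpectrum (𝓞 K') → ℕ} {m : HeightOneSpectrum (𝓞 K) → ℕ}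
    {φ₀ : ∀ w : HeightOneSpectrum (𝓞 K'), GL (Fin 2) (w.adicCompletion K') → ℂ}
    {Φ : InfinitePlace K' → GL (Fin 2) ℂ → ℂ}
    {f₀ : ∀ v : HeightOneSpectrum (𝓞 K), GL (Fin 2) (v.adicCompletion K) → ℂ}
    {F : InfinitePlace K → GL (Fin 2) ℂ → ℂ}
    (h : H893.LocHyp893 D μc S n m φ₀ Φ f₀ F) (hl : 1 < D.l)
    {v : HeightOneSpectrum (𝓞 K)} (hv : v ∈ S) (w : HeightOneSpectrum (𝓞 K'))
    (huniq : ∀ w' : HeightOneSpectrum (𝓞 K'), PlaceOver K K' v w' → w' = w) :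
    LocHyp305 D μc {v} n m φ₀ Φ f₀ F where
  inv_up := fun v' hv' => by
    rw [Finset.mem_singleton] at hv'
    subst hv'
    exact h.inv_up _ hv
  inv_down := fun v' hv' => by
    rw [Finset.mem_singleton] at hv'
    subst hv'
    exact h.inv_down _ hv
  arch_up := h.arch_up
  arch_down := h.arch_down
  inert := fun v' hv' => by
    rw [Finset.mem_singleton] at hv'
    subst hv'
    exact h.inert _ hv
  split := fun v' hv' w' _ hover _ hne => by
    rw [Finset.mem_singleton] at hv'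
    subst hv'
    exact absurd ((huniq _ (hover 1)).trans (huniq _ (hover 0)).symm) (hne 1 Nat.one_pos hl)
  arch := h.arch

/-- `LocHyp305` for the empty set from `LocHyp893`. -/
theorem locHyp305_empty305b {D : CompData K K'} {μc : @Measure (GL (Fin 2) ℂ) (borel _)}
    {S : Finset (HeightOneSpectrum (𝓞 K))}
    {n : HeightOneSpectrum (𝓞 K') → ℕ} {m : HeightOneSpectrum (𝓞 K) → ℕ}
    {φ₀ : ∀ w : HeightOneSpectrum (𝓞 K'), GL (Fin 2) (w.adicCompletion K') → ℂ}
    {Φ : InfinitePlace K' → GL (Fin 2) ℂ → ℂ}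
    {f₀ : ∀ v : HeightOneSpectrum (𝓞 K), GL (Fin 2) (v.adicCompletion K) → ℂ}
    {F : InfinitePlace K → GL (Fin 2) ℂ → ℂ}
    (h : H893.LocHyp893 D μc S n m φ₀ Φ f₀ F) :
    LocHyp305 D μc ∅ n m φ₀ Φ f₀ F where
  inv_up := fun v' hv' => absurd hv' (Finset.notMem_empty _)
  inv_down := fun v' hv' => absurd hv' (Finset.notMem_empty _)
  arch_up := h.arch_up
  arch_down := h.arch_down
  inert := fun v' hv' => absurd hv' (Finset.notMem_empty _)
  split := fun v' hv' => absurd hv' (Finset.notMem_empty _)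
  arch := h.arch

/-- **THE TOP OF THE NODE C2.7.13b**: `FactUpC305b` from the factorisation upstairs and the
three local equalities (the inert and the archimedean ones are the leaves of helper340). -/
theorem factUpC_of305b (hU : UpFactC305b K K') (hI : H340.LocEqInertC340 K K')
    (hS : LocEqSplitC305b K K') (hA : H340.LocEqArchC340 K K') : FactUpC305b K K' := by
  classical
  intro hT6 D hD hcyc hl hcplx ι hι μc hμc T₀ hT₀ n m hlev
  obtain ⟨cG', hcG', hfact⟩ := hU hT6 D hD hcyc hl hcplx ι hι μc hμc T₀ hT₀ n m hlev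
  refine ⟨cG', hcG', ?_⟩
  intro S S' hTS hSS' φ₀ Φ f₀ F hloc δ γ hγ hN hgood hint μT μT' hμT hμT' hlink L cT hL hcT hTor
  obtain ⟨β', J, Jc, hcut, hval, hJ, hJc⟩ :=
    hfact S S' hTS hSS' φ₀ Φ f₀ F hloc δ γ hγ hN hgood hint μT μT' hμT hμT' hlink L cT hL hcT
      hTor
  have hl1 : 1 < D.l := hcyc.prime.one_lt
  refine ⟨β', hcut, ?_⟩
  rw [hval]
  congr 1
  unfold factVal305
  refine tsum_congr fun j => ?_
  congr 1
  · refine Finset.prod_congr rfl fun v hv => ?_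
    rcases hJ v hv with h | h
    · have h' := h
      obtain ⟨w, e, i, sw, μ', μt', β'', hvw, huniq, -⟩ := h'
      exact hI hT6 D hD hcyc hl hcplx μc {v} n m φ₀ Φ f₀ F
        (locHyp305_single305b hloc hl1 hv w huniq) δ γ hγ hN L hL v
        (Finset.mem_singleton_self v) (J v) h
    · exact hS hT6 D hD hcyc hl hcplx μc S n m φ₀ Φ f₀ F hloc δ γ hγ hN L hL v hv (J v) h
  · refine Finset.prod_congr rfl fun w _ => ?_
    exact hA D hD hcyc hl hcplx ι hι μc hμc ∅ n m φ₀ Φ f₀ F (locHyp305_empty305b hloc) δ γ hγ hN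
      L hL w j (Jc w j) (hJc w j)

/-- **THE TOP OF THE SECOND CUT for `LocHyp893`.** -/
theorem cutIntC_of305b (hT6 : T6.T6Out) (hgood : GoodSetC305 K K')
    (hunit : UnitMatchC305b K K') (hpure : PureExtC305 K) (hpure' : PureExtC305 K')
    (hmeas : LocMeasC305) (hcut : LocCutC305) (harch : ArchMeasC305)
    (htor : TorSplitC305 K) (hdown : FactDownC305 K) (hup : FactUpC305b K K')
    (hvan : LocVanC305) (hnn : NonNormLocC305 K K') : CutIntC305b K K' := by
  classical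
  intro D hD hcyc hl2 htc ι hι μc hμc T₀ hun n m hlev
  obtain ⟨cG, hcG, hdn⟩ := hdown htc D.R hD.frame μc hμc T₀ m hlev.1
  obtain ⟨cG', hcG', hupp⟩ := hup hT6 D hD hcyc hl2 htc ι hι μc hμc T₀ hun n m hlev
  have hloc : T6.InstLocalC := hT6.2.2.2.2.2.1
  refine ⟨((cG' / cG : ℝ) : ℂ), ?_, ?_⟩
  · exact_mod_cast (div_pos hcG' hcG).ne'
  intro T T' hT₀T hTT' φ₀ Φ f₀ F hlocT
  constructor
  · -- the norms
    intro δ γ hell hN μT μT' hμT hμT' hlink
    obtain ⟨S, S', hTS, hSS', hgγ, hiδ⟩ := hgood γ δ hell T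
    have hlocS := hunit hT6 D hD hcyc hl2 htc μc hμc T₀ hun n m hlev T S T' S' hT₀T hTS hTT'
      hSS' φ₀ Φ f₀ F hlocT
    obtain ⟨L, hL⟩ := exists_locData305 hT6 hmeas hcut harch m hell
    obtain ⟨cT, hcT, hTC⟩ := htor htc γ hell μT hμT L hL.tor hL.torc
    obtain ⟨hβ, hval⟩ := hdn S (hT₀T.trans hTS) (ext305 T f₀) F hlocS.inv_down
      (fun w => ⟨(hlocS.arch_down w).1, (hlocS.arch_down w).2.1⟩) γ hell hgγ μT hμT L cT hL hcT
      hTC
    obtain ⟨β', hβ', hval'⟩ := hupp S S' (hT₀T.trans hTS) hSS' (ext305 T' φ₀) Φ (ext305 T f₀) F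
      hlocS δ γ hell hN hgγ hiδ μT μT' hμT hμT' hlink L cT hL hcT hTC
    rw [pure_ext_fun305 hpure hTS] at hβ hval
    rw [pure_ext_fun305 hpure' (over_mono305 hTS hTT' hSS')] at hβ' hval'
    refine ⟨β', prodCut305 S cT L, hβ', hβ, ?_⟩
    have h1 : cG ≠ 0 := hcG.ne'
    have h2 : cT ≠ 0 := hcT.ne'
    have h3 : cG' / cT = cG' / cG * (cG / cT) := by field_simp
    rw [hval', hval, ← mul_assoc, ← Complex.ofReal_mul, ← h3]
  · -- the elements which are not norms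
    intro γ hell hnot μT hμT
    obtain ⟨v, w, e, i, sw, hvw, huniq, hi, hsw, hext, hnorm⟩ :=
      hnn hT6 D hD hcyc hl2 htc γ hell hnot
    obtain ⟨S, S', hTS, hSS', hgγ, -⟩ := hgood γ 1 hell (insert v T)
    have hTS' : T ⊆ S := (Finset.subset_insert v T).trans hTS
    have hvS : v ∈ S := hTS (Finset.mem_insert_self v T)
    have hlocS := hunit hT6 D hD hcyc hl2 htc μc hμc T₀ hun n m hlev T S T' S' hT₀T hTS' hTT'
      hSS' φ₀ Φ f₀ F hlocT
    obtain ⟨L, hL⟩ := exists_locData305 hT6 hmeas hcut harch m hell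
    obtain ⟨cT, hcT, hTC⟩ := htor htc γ hell μT hμT L hL.tor hL.torc
    obtain ⟨hβ, hval⟩ := hdn S (hT₀T.trans hTS') (ext305 T f₀) F hlocS.inv_down
      (fun w => ⟨(hlocS.arch_down w).1, (hlocS.arch_down w).2.1⟩) γ hell hgγ μT hμT L cT hL hcT
      hTC
    rw [pure_ext_fun305 hpure hTS'] at hβ hval
    refine ⟨prodCut305 S cT L, hβ, ?_⟩
    rw [hval]
    have hzero : locInt305 (L.μv v) (L.βv v) (ext305 T f₀ v) (locG305 v γ) = 0 := by
      refine hvan hT6 (v.adicCompletion K) _ (hloc K v) (m v) (ext305 T f₀ v)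
        (hlocS.inv_down v hvS).1 (hlocS.inv_down v hvS).2 (locG305 v γ) (isReg_locG305 hell v)
        ?_ (L.μv v) (hL.haar v) (L.μt v) (hL.tor v) (L.βv v) (hL.cut v)
      intro c' hc'
      exact ((hlocS.inert v hvS w hvw huniq e i sw hi hsw hext).2 (locG305 v γ) c'
        (isReg_locG305 hell v) hnorm hc')
    have hfact : factVal305 D.R.r S L (ext305 T f₀) μc F = 0 := by
      unfold factVal305
      rw [Finset.prod_eq_zero hvS hzero]
      simp
    rw [hfact, mul_zero]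


/-- **THE TOP OF THE FIRST CUT for `LocHyp893`**: global matching from local matching. -/
theorem globMatch_of305b (hι : IotaC305 K K') (hU : UnfoldC305 K) (hU' : UnfoldC305 K')
    (hTc : TorCommC305 K) (hTc' : TorCommC305 K')
    (hRep : TwistRepC305 K') (hEll : EllRegC305 K K') (hHaar : TorHaarC305 K)
    (hMeas : TorMeasC305 K K') (hComp : TorCompC305 K K') (hCut : CutIntC305b K K') :
    H893.GlobMatchC893 K K' := by
  intro D hD hcyc hl hcplx μc hμc T₀ hram n m hlev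
  obtain ⟨ι, hιD⟩ := hι D hD hcyc hcplx
  obtain ⟨κ₀, hκ₀, hC⟩ := hCut D hD hcyc hl hcplx ι hιD μc hμc T₀ hram n m hlev
  have hl0 : ((D.l : ℕ) : ℂ) ≠ 0 := by
    exact_mod_cast hcyc.prime.ne_zero
  refine ⟨κ₀ / (D.l : ℂ), div_ne_zero hκ₀ hl0, ?_⟩
  intro T T' hTT hT' φ₀ Φ f₀ F hloc φ' f hφ' hf htφ' htf
  obtain ⟨hnorm, hnon⟩ := hC T T' hTT hT' φ₀ Φ f₀ F hloc
  have eφ' : φ' = pure305 T' φ₀ Φ := funext hφ'
  have ef : f = fun h => κ₀ / (D.l : ℂ) * pure305 T f₀ F h := funext hf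
  have hκ : κ₀ / (D.l : ℂ) ≠ 0 := div_ne_zero hκ₀ hl0
  constructor
  · intro δ γ hγ hN Fδ Fγ hFδ hFγ
    obtain ⟨δ₁, Fδ₁, hN₁, hFδ₁, hint⟩ :=
      hRep D.R' hD.frame' D.s D.l D.k D.𝔑 hD.cyc hD.aut δ
        (Matrix.GeneralLinearGroup.map (algebraMap K K') γ) hN Fδ hFδ
    rw [← hint φ']
    obtain ⟨μT, μT', hμT, hμT', hlink⟩ := hMeas D hD hcyc hcplx ι hιD δ₁ γ hγ hN₁
    obtain ⟨β', β, hβ', hβ, hCI⟩ := hnorm δ₁ γ hγ hN₁ μT μT' hμT hμT' hlink
    have hreg := hEll D hD γ hγ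
    have e1 := hU' D.R' hD.frame' D.s D.l D.k D.𝔑 hD.cyc hD.aut δ₁
      (by rw [hN₁]; exact hreg.1) φ' htφ' Fδ₁ hFδ₁
      (hTc' D.R' hD.frame' D.s D.l D.k D.𝔑 hD.cyc hD.aut δ₁ (by rw [hN₁]; exact hreg.1))
      μT' hμT' β' (by rw [eφ']; exact hβ')
    have e2 := hU D.R hD.frame (T5.AdelicAut.id K) 1 ⊤ D.𝔫 T5.isCyclicOfDegree_id
      (T5.autPreserves_id D.𝔫 D.R.μ D.R.r) γ hreg.2 f htf Fγ hFγ
      (hTc D.R hD.frame (T5.AdelicAut.id K) 1 ⊤ D.𝔫 T5.isCyclicOfDegree_id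
        (T5.autPreserves_id D.𝔫 D.R.μ D.R.r) γ hreg.2)
      μT hμT β
      (by rw [ef, supp_const_mul305 _ _ hκ]; exact hβ)
    have e3 := hComp D hD hcyc hcplx ι hιD δ₁ γ hγ hN₁ Fδ₁ Fγ hFδ₁ hFγ μT μT' hμT hμT' hlink
    rw [e1, e2, e3, eφ', hCI, ef, cutInt_const_mul305, ENNReal.toReal_mul]
    simp only [ENNReal.toReal_natCast]
    push_cast
    field_simp
  · intro γ hγ hno Fγ hFγ
    obtain ⟨μT, hμT⟩ := hHaar (T5.AdelicAut.id K) γ
    obtain ⟨β, hβ, hCI⟩ := hnon γ hγ hno μT hμT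
    have hreg := hEll D hD γ hγ
    have e2 := hU D.R hD.frame (T5.AdelicAut.id K) 1 ⊤ D.𝔫 T5.isCyclicOfDegree_id
      (T5.autPreserves_id D.𝔫 D.R.μ D.R.r) γ hreg.2 f htf Fγ hFγ
      (hTc D.R hD.frame (T5.AdelicAut.id K) 1 ⊤ D.𝔫 T5.isCyclicOfDegree_id
        (T5.autPreserves_id D.𝔫 D.R.μ D.R.r) γ hreg.2)
      μT hμT β
      (by rw [ef, supp_const_mul305 _ _ hκ]; exact hβ)
    rw [e2, ef, cutInt_const_mul305, hCI]
    simp

end Fermat.Agent.LT.T7.H305

end
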