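import Mathlib
import Fermat.Agent.LT.T7.H305.MatchTop
import Fermat.Agent.LT.T7.H305.MatchCutTop
import Fermat.Agent.LT.T7.H627.Unfold305
import Fermat.Agent.LT.T7.H233.TorComm
import Fermat.Agent.LT.T7.H655.TwistRep
import Fermat.Agent.LT.T7.H277.EllReg
import Fermat.Agent.LT.T7.H149.TorHaar
import Fermat.Agent.LT.T7.H787.TorMeas
import Fermat.Agent.LT.T7.H119.TorComp
import Fermat.Agent.LT.T7.H385.LocVan
import Fermat.Agent.LT.T7.H729.LocMeas
import Fermat.Agent.LT.T7.H543.LocCut
import Fermat.Agent.LT.T7.H709.ArchMeas
import Fermat.Agent.LT.T7.H82.PureExt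
import Fermat.Agent.LT.T7.H532.GoodSet
import Fermat.Agent.LT.T7.H857.NonNormLoc

/-!
# Row LT, tower T7, station C2 (field `matched`, helper305): INTEGRATION v1

OFF-MAIN.  Complete proofs, nothing assumed.  ADDITIVE.

CLOSED leaves (vendored byte-identical, ONE closure with the two cuts):

* first cut: `UnfoldC305` helper627, `TorCommC305` helper233, `TwistRepC305` helper655,
  `EllRegC305` helper277, `TorHaarC305` helper149, `TorMeasC305` helper787, `TorCompC305`
  helper119;
* second cut: `GoodSetC305` helper532, `PureExtC305` helper82, `LocMeasC305` helper729,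
  `LocCutC305` helper543, `ArchMeasC305` helper709, `LocVanC305` helper385, `NonNormLocC305`
  helper857 (+ helper584).

OPEN (the structure `OpenMatch305`): `T6.T6Out` (closed by the tower T6, supplied by the
master), `IotaC305` (helper185, cut), `UnitMatchC305` (helper195), `TorSplitC305` (helper589),
`FactDownC305` (helper558, cut), `FactUpC305` (helper340, cut).

    cutIntC_of_open305   : OpenMatch305 K K' → CutIntC305 K K'
    globMatchC_of_open305 : OpenMatch305 K K' → GlobMatchC305 K K'
-/

set_option autoImplicit false

open AutomorphicForm IsDedekindDomain NumberField MeasureTheory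
open scoped ComplexConjugate

noncomputable section

namespace Fermat.Agent.LT.T7.H305

open Fermat.Agent.LT.H556 Fermat.Agent.LT.H556.A0 Fermat.Agent.LT.T7

attribute [local instance] Fermat.Agent.LT.T5.instMeasurableSpaceG

variable (K K' : Type) [Field K] [NumberField K] [Field K'] [NumberField K'] [Algebra K K']

/-- **THE OPEN WALL of the station C2** (integration v1). -/
structure OpenMatch305 : Prop where
  t6 : T6.T6Out
  iota : IotaC305 K K'
  unit : UnitMatchC305 K K'
  torSplit : TorSplitC305 K
  factDown : FactDownC305 K
  factUp : FactUpC305 K K'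

variable {K K'}

/-- The core node from the open wall. -/
theorem cutIntC_of_open305 (h : OpenMatch305 K K') : CutIntC305 K K' :=
  cutIntC_of305 h.t6 (H532.goodSetC532 K K') h.unit (H82.pureExtC82 K) (H82.pureExtC82 K')
    LocMeas729.locMeasC729 H543C.locCutC543 H709.archMeasC709 h.torSplit h.factDown h.factUp
    H385.locVanC385 (H857.nonNormLocC857 K K')

/-- **GLOBAL MATCHING FROM LOCAL MATCHING, from the open wall.** -/
theorem globMatchC_of_open305 (h : OpenMatch305 K K') : GlobMatchC305 K K' :=
  globMatch_of305 h.iota (H627.unfoldC627 K) (H627.unfoldC627 K') (H233.torCommC233 K)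
    (H233.torCommC233 K') (H655.twistRepC655 K') (H277.ellRegC277 K K') (H149.torHaarC149 K)
    (H787.torMeasC787 K K') H119.torCompC119 (cutIntC_of_open305 h)

end Fermat.Agent.LT.T7.H305

end
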