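import Mathlib
import Fermat.Agent.LT.T7.H305.Match893Spec
import Fermat.Agent.LT.T7.H340.UpFactSpec

/-!
# Row LT, tower T7, node C2.7.13.1b `UpFactC305b` (helper305): the cut of helper340 for
# `H893.LocHyp893` -- Spec

OFF-MAIN.  Definitions and frozen Props only (the proved top is `UpFact893Top.lean`).  No hole,
nothing assumed.  ADDITIVE (new names only, suffix `305b`).  Vocabulary: `Match893Spec.lean`
(helper305), `T7/H340/UpFactSpec.lean` (helper340@4a08d18e4, sha256 04981afb), byte-identical.

    upFactC305b_of_parts : UpDatC305b K K' → H340.CutOnUpC340 K K' → FactIntUpC305b K K'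
                             → UpFactC305b K K'

The second cut of `H340.UpFactC340` by helper340 is stated FOR ALL local data upstairs `U`
(`CutOnUpC340`, `FactIntUpC340`); so for `LocHyp893` (convolution identity for ONE enumeration
at the split places) only the choice of `U` changes:

* `UpDatC305b` = `H340.UpDatC340` + at the split places of `S` the enumeration of `U` is THE
  enumeration of `LocHyp893.split` (levels agree, convolution identity).  The additional
  properties `inj`, `exh`, `sig`, `iot` of `H340.IsSplitDat340` hold for EVERY enumeration with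
  the properties `ovr`, `rel`, `ne`, `rat_i`, `val_i` (falsity checks of helper340: `i_a` is
  determined by `rat_i` and continuity; the orbit of `σ` on the places over `v` is free and
  transitive).
* `H340.CutOnUpC340`: UNCHANGED (no local hypotheses).
* `FactIntUpC305b` = `H340.FactIntUpC340` with `LocHyp893` (the proof uses `inv_up`, `arch_up`
  and the agreement of the levels at the split places: `n (w_a) = m v` for ALL places over `v`,
  from the ONE enumeration of the hypothesis, which exhausts the places over `v`).  The leaves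
  `GrpSplitC340`, `PtFactUpC340`, `RayFinUpC340`, `ArchIntblUpC340` are UNCHANGED.
-/

set_option autoImplicit false

open AutomorphicForm IsDedekindDomain NumberField MeasureTheory
open scoped ComplexConjugate

noncomputable section

namespace Fermat.Agent.LT.T7.H305

open Fermat.Agent.LT.H556 Fermat.Agent.LT.H556.A0 Fermat.Agent.LT.T7

attribute [local instance] Fermat.Agent.LT.T5.instMeasurableSpaceG

variable (K K' : Type) [Field K] [NumberField K] [Field K'] [NumberField K'] [Algebra K K']

/-- **PART 0b = UP-DAT for `LocHyp893`** (the local data upstairs exist, with THE enumeration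
of the hypothesis at the split places).  See the header. -/
def UpDatC305b : Prop :=
  T6.T6Out →
  ∀ D : CompData K K', IsCompData D → IsCycExt K K' D.l → D.l ≠ 2 → TotCplx K →
    ∀ ι : Adl K →+* Adl K', IsAdeleBase305 D.s D.l ι →
    ∀ μc : @Measure (GL (Fin 2) ℂ) (borel _),
    ∀ (T₀ : Finset (HeightOneSpectrum (𝓞 K))), UnramOut305 (K' := K') T₀ →
    ∀ (n : HeightOneSpectrum (𝓞 K') → ℕ) (m : HeightOneSpectrum (𝓞 K) → ℕ),
      IsLevelAt305 T₀ n m →
    ∀ (S : Finset (HeightOneSpectrum (𝓞 K))) (S' : Finset (HeightOneSpectrum (𝓞 K'))),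
      T₀ ⊆ S → IsOver305 S S' →
    ∀ (φ₀ : ∀ w : HeightOneSpectrum (𝓞 K'), GL (Fin 2) (w.adicCompletion K') → ℂ)
      (Φ : InfinitePlace K' → GL (Fin 2) ℂ → ℂ)
      (f₀ : ∀ v : HeightOneSpectrum (𝓞 K), GL (Fin 2) (v.adicCompletion K) → ℂ)
      (F : InfinitePlace K → GL (Fin 2) ℂ → ℂ),
      H893.LocHyp893 D μc S n m φ₀ Φ f₀ F →
    ∀ (δ : GL (Fin 2) K') (γ : GL (Fin 2) K), T6.IsEll γ →
      D.s.normUpTo D.l δ = Matrix.GeneralLinearGroup.map (algebraMap K K') γ →
    ∀ L : LocData305 K γ, IsLocData305 m L →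
      ∃ U : H340.UpDat340 K δ, H340.IsUpDat340 D ι n L S U ∧
        ∀ v : U.Ssp,
          (∀ j : ℕ, n ((U.dS v).w j) = m v.1) ∧
            T6.IsConvProd (T6.InU (m v.1)) D.l
              (fun j g => φ₀ ((U.dS v).w j)
                (Matrix.GeneralLinearGroup.map
                  (((U.dS v).i j : (v.1).adicCompletion K ≃+* _) :
                    (v.1).adicCompletion K →+* ((U.dS v).w j).adicCompletion K') g))
              (f₀ v.1)

/-- **PART Bb = FACT-INT-UP for `LocHyp893`.**  `H340.FactIntUpC340` with `H893.LocHyp893`. -/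
def FactIntUpC305b : Prop :=
  T6.T6Out →
  ∀ D : CompData K K', IsCompData D → IsCycExt K K' D.l → D.l ≠ 2 → TotCplx K →
    ∀ ι : Adl K →+* Adl K', IsAdeleBase305 D.s D.l ι →
    ∀ μc : @Measure (GL (Fin 2) ℂ) (borel _), @Measure.IsHaarMeasure _ _ _ (borel _) μc →
    ∀ (T₀ : Finset (HeightOneSpectrum (𝓞 K))), UnramOut305 (K' := K') T₀ →
    ∀ (n : HeightOneSpectrum (𝓞 K') → ℕ) (m : HeightOneSpectrum (𝓞 K) → ℕ),
      IsLevelAt305 T₀ n m →
    ∃ cG' : ℝ, 0 < cG' ∧
      ∀ (S : Finset (HeightOneSpectrum (𝓞 K))) (S' : Finset (HeightOneSpectrum (𝓞 K'))),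
        T₀ ⊆ S → IsOver305 S S' →
      ∀ (φ₀ : ∀ w : HeightOneSpectrum (𝓞 K'), GL (Fin 2) (w.adicCompletion K') → ℂ)
        (Φ : InfinitePlace K' → GL (Fin 2) ℂ → ℂ)
        (f₀ : ∀ v : HeightOneSpectrum (𝓞 K), GL (Fin 2) (v.adicCompletion K) → ℂ)
        (F : InfinitePlace K → GL (Fin 2) ℂ → ℂ),
        H893.LocHyp893 D μc S n m φ₀ Φ f₀ F →
      ∀ (δ : GL (Fin 2) K') (γ : GL (Fin 2) K), T6.IsEll γ →
        D.s.normUpTo D.l δ = Matrix.GeneralLinearGroup.map (algebraMap K K') γ →
        GoodOut305 S γ → IntOut305 S' δ →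
      ∀ (L : LocData305 K γ) (cT : ℝ), IsLocData305 m L → 0 < cT →
      ∀ (U : H340.UpDat340 K δ) (hU : H340.IsUpDat340 D ι n L S U),
        cutInt305 D.R'.r D.s (pure305 S' φ₀ Φ) δ D.R'.μ (H340.upCut340 S' cT L U)
          = ((cG' / cT : ℝ) : ℂ)
            * ∑' j : ℤ, (∏ v ∈ S, H340.upJ340 D.l hU.pos φ₀ L U v)
                * ∏ w : InfinitePlace K, H340.upJc340 D.l hU.pos D.R'.r Φ L μc U w j

end Fermat.Agent.LT.T7.H305

end
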