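import Mathlib
import Fermat.Agent.LT.T7.H305.UpFact893Spec
import Fermat.Agent.LT.T7.H340.UpFactTop

/-!
# Row LT, tower T7, node C2.7.13.1b `UpFactC305b` (helper305): the proved top

OFF-MAIN.  Complete proof, nothing assumed.

    upFactC305b_of_parts : UpDatC305b K K' → H340.CutOnUpC340 K K' → FactIntUpC305b K K'
                             → UpFactC305b K K'
-/

set_option autoImplicit false

open AutomorphicForm IsDedekindDomain NumberField MeasureTheory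
open scoped ComplexConjugate

noncomputable section

namespace Fermat.Agent.LT.T7.H305

open Fermat.Agent.LT.H556 Fermat.Agent.LT.H556.A0 Fermat.Agent.LT.T7 Fermat.Agent.LT.T7.H340

attribute [local instance] Fermat.Agent.LT.T5.instMeasurableSpaceG

variable {K K' : Type} [Field K] [NumberField K] [Field K'] [NumberField K'] [Algebra K K']

/-- **THE TOP OF THE NODE C2.7.13.1b**: `UpFactC305b` from the three parts. -/
theorem upFactC305b_of_parts (hDat : UpDatC305b K K') (hA : CutOnUpC340 K K')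
    (hB : FactIntUpC305b K K') : UpFactC305b K K' := by
  intro hT6 D hD hcyc hl hcplx ι hι μc hμc T₀ hT₀ n m hlev
  obtain ⟨cG', hcG', hfact⟩ := hB hT6 D hD hcyc hl hcplx ι hι μc hμc T₀ hT₀ n m hlev
  refine ⟨cG', hcG', ?_⟩
  intro S S' hTS hSS' φ₀ Φ f₀ F hloc δ γ hγ hN hgood hint μT μT' hμT hμT' hlink L cT hL hcT hTor
  obtain ⟨U, hU, hconv⟩ := hDat hT6 D hD hcyc hl hcplx ι hι μc T₀ hT₀ n m hlev S S' hTS hSS'
    φ₀ Φ f₀ F hloc δ γ hγ hN L hL
  refine ⟨upCut340 S' cT L U, upJ340 D.l hU.pos φ₀ L U, upJc340 D.l hU.pos D.R'.r Φ L μc U,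
    ?_, ?_, ?_, ?_⟩
  · exact hA hT6 D hD hcyc hl hcplx ι hι T₀ hT₀ n m hlev S S' hTS hSS' φ₀ Φ δ γ hγ hN hgood hint
      μT μT' hμT hμT' hlink L cT hL hcT hTor U hU
  · exact hfact S S' hTS hSS' φ₀ Φ f₀ F hloc δ γ hγ hN hgood hint L cT hL hcT U hU
  · intro v hv
    rcases (hU.union v).1 hv with h | h
    · left
      have hd := hU.inert ⟨v, h⟩
      exact ⟨(U.dI ⟨v, h⟩).w, (U.dI ⟨v, h⟩).e, (U.dI ⟨v, h⟩).i, (U.dI ⟨v, h⟩).sw,
        (U.dI ⟨v, h⟩).μ', (U.dI ⟨v, h⟩).μt', (U.dI ⟨v, h⟩).β', hd.ovr, hd.uniq, hd.rat_i,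
        hd.rat_s, hd.ext, hd.haar, hd.tor, hd.cut, upJ_inert340 D.l hU.pos φ₀ L U v h⟩
    · right
      have hnot : v ∉ U.Sin := fun h1 => hU.disj v h1 h
      have hd := hU.split ⟨v, h⟩
      exact ⟨hU.pos, (U.dS ⟨v, h⟩).w, (U.dS ⟨v, h⟩).i, hd.ovr, hd.rel, hd.ne, hd.rat_i,
        hd.val_i, (hconv ⟨v, h⟩).1, (hconv ⟨v, h⟩).2,
        upJ_split340 D.l hU.pos φ₀ L U v hnot h⟩
  · intro w j
    have hd := hU.arch w
    exact ⟨hU.pos, (U.dA w).w, (U.dA w).d, hd.ovr, hd.rel, hd.inj, hd.typ, hd.iot, rfl⟩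

end Fermat.Agent.LT.T7.H305

end
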