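import Mathlib
import Fermat.Agent.LT.T7.H305.Match893Top
import Fermat.Agent.LT.T7.H305.MatchClosed
import Fermat.Agent.LT.T7.H816.IotaClosed
import Fermat.Agent.LT.T7.H555.LocEqInert
import Fermat.Agent.LT.T7.H305.UpFact893Top
import Fermat.Agent.LT.T7.H558.FactDownClosed

/-!
# Row LT, tower T7, station C2 (helper305): INTEGRATION v3 -- `H893.GlobMatchC893`

OFF-MAIN.  Complete proofs, nothing assumed.  ADDITIVE.

    globMatchC893_of_open305 : OpenMatch305b K K' → H893.GlobMatchC893 K K'

CLOSED (vendored byte-identical, ONE closure): the 14 leaves of integration v1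
(`MatchClosed.lean`), `IotaC305` helper816 (`iotaC_closed816`), `H340.LocEqInertC340` helper555,
`FactDownC305` helper558 (`factDownC558`, with its 13 leaves).

OPEN (the structure `OpenMatch305b`): `T6.T6Out` (tower T6, supplied by the master),
`TorSplitC305 K`, `UnitMatchC305b`, `UpDatC305b`, `H340.CutOnUpC340`, `FactIntUpC305b`,
`LocEqSplitC305b`, `H340.LocEqArchC340`.
-/

set_option autoImplicit false

open AutomorphicForm IsDedekindDomain NumberField MeasureTheory
open scoped ComplexConjugate

noncomputable section

namespace Fermat.Agent.LT.T7.H305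

open Fermat.Agent.LT.H556 Fermat.Agent.LT.H556.A0 Fermat.Agent.LT.T7

attribute [local instance] Fermat.Agent.LT.T5.instMeasurableSpaceG

variable (K K' : Type) [Field K] [NumberField K] [Field K'] [NumberField K'] [Algebra K K']

/-- **THE OPEN WALL of the station C2 for `LocHyp893`** (integration v2). -/
structure OpenMatch305b : Prop where
  t6 : T6.T6Out
  torSplit : TorSplitC305 K
  unit : UnitMatchC305b K K'
  upDat : UpDatC305b K K'
  cutOnUp : H340.CutOnUpC340 K K'
  factIntUp : FactIntUpC305b K K'
  locEqSplit : LocEqSplitC305b K K'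
  locEqArch : H340.LocEqArchC340 K K'

variable {K K'}

/-- The factorisation upstairs from the open wall. -/
theorem factUpC305b_of_open305 (h : OpenMatch305b K K') : FactUpC305b K K' :=
  factUpC_of305b (upFactC305b_of_parts h.upDat h.cutOnUp h.factIntUp)
    (H555.locEqInertC555 K K') h.locEqSplit h.locEqArch

/-- The core node from the open wall. -/
theorem cutIntC305b_of_open305 (h : OpenMatch305b K K') : CutIntC305b K K' :=
  cutIntC_of305b h.t6 (H532.goodSetC532 K K') h.unit (H82.pureExtC82 K) (H82.pureExtC82 K')
    LocMeas729.locMeasC729 H543C.locCutC543 H709.archMeasC709 h.torSplit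
    (H558.factDownC558 K) (factUpC305b_of_open305 h) H385.locVanC385 (H857.nonNormLocC857 K K')

/-- **THE MATCHING THEOREM `H893.GlobMatchC893` from the open wall.** -/
theorem globMatchC893_of_open305 (h : OpenMatch305b K K') : H893.GlobMatchC893 K K' :=
  globMatch_of305b (H816.iotaC_closed816 K K') (H627.unfoldC627 K) (H627.unfoldC627 K')
    (H233.torCommC233 K) (H233.torCommC233 K') (H655.twistRepC655 K') (H277.ellRegC277 K K')
    (H149.torHaarC149 K) (H787.torMeasC787 K K') H119.torCompC119 (cutIntC305b_of_open305 h)

end Fermat.Agent.LT.T7.H305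

end
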