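import Mathlib
import Fermat.Agent.LT.T7.H305.Match893Closed
import Fermat.Agent.LT.T7.H589.TorSplit
import Fermat.Agent.LT.T7.H582.LocEqArch
import Fermat.Agent.LT.T7.H816.UnitAdapt305b

/-!
# Row LT, tower T7, station C2 (helper305): INTEGRATION v4 -- `H893.GlobMatchC893`

OFF-MAIN.  Complete proofs, nothing assumed.  ADDITIVE (integration v3 `Match893Closed.lean`
is not changed).

    globMatchC893_of_open305c : OpenMatch305c K K' → H893.GlobMatchC893 K K'

NEWLY CLOSED (vendored byte-identical, ONE closure): `TorSplitC305` helper589 (`torSplitC589`),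
`H340.LocEqArchC340` helper582 (`locEqArchC582`), `UnitMatchC305b` helper816
(`unitMatchC305b_816`).

OPEN (the structure `OpenMatch305c`): `T6.T6Out` (tower T6, supplied by the master),
`UpFactC305b` (two cuts: `upFactC305b_of_parts` of this station, `upFactC305b_of314` of
helper314) and `LocEqSplitC305b`.
-/

set_option autoImplicit false

open AutomorphicForm IsDedekindDomain NumberField MeasureTheory
open scoped ComplexConjugate

noncomputable section

namespace Fermat.Agent.LT.T7.H305

open Fermat.Agent.LT.H556 Fermat.Agent.LT.H556.A0 Fermat.Agent.LT.T7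

attribute [local instance] Fermat.Agent.LT.T5.instMeasurableSpaceG

variable (K K' : Type) [Field K] [NumberField K] [Field K'] [NumberField K'] [Algebra K K']

/-- **THE OPEN WALL of the station C2 for `LocHyp893`** (integration v4). -/
structure OpenMatch305c : Prop where
  t6 : T6.T6Out
  upFact : UpFactC305b K K'
  locEqSplit : LocEqSplitC305b K K'

variable {K K'}

/-- The factorisation upstairs from the open wall (v4). -/
theorem factUpC305b_of_open305c (h : OpenMatch305c K K') : FactUpC305b K K' :=
  factUpC_of305b h.upFact (H555.locEqInertC555 K K') h.locEqSplit (H582.locEqArchC582 K K')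

/-- The core node from the open wall (v4). -/
theorem cutIntC305b_of_open305c (h : OpenMatch305c K K') : CutIntC305b K K' :=
  cutIntC_of305b h.t6 (H532.goodSetC532 K K') (H816U.unitMatchC305b_816 K K')
    (H82.pureExtC82 K) (H82.pureExtC82 K')
    LocMeas729.locMeasC729 H543C.locCutC543 H709.archMeasC709
    (Fermat.Agent.LT.H589.torSplitC589 K)
    (H558.factDownC558 K) (factUpC305b_of_open305c h) H385.locVanC385
    (H857.nonNormLocC857 K K')

/-- **THE MATCHING THEOREM `H893.GlobMatchC893` from the open wall (v4).** -/
theorem globMatchC893_of_open305c (h : OpenMatch305c K K') : H893.GlobMatchC893 K K' :=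
  globMatch_of305b (H816.iotaC_closed816 K K') (H627.unfoldC627 K) (H627.unfoldC627 K')
    (H233.torCommC233 K) (H233.torCommC233 K') (H655.twistRepC655 K') (H277.ellRegC277 K K')
    (H149.torHaarC149 K) (H787.torMeasC787 K K') H119.torCompC119 (cutIntC305b_of_open305c h)

/-- The same with the cut of this station for `UpFactC305b` (route A). -/
theorem globMatchC893_of_partsA305 (hT6 : T6.T6Out) (hUpDat : UpDatC305b K K')
    (hCut : H340.CutOnUpC340 K K') (hFI : FactIntUpC305b K K')
    (hSplit : LocEqSplitC305b K K') : H893.GlobMatchC893 K K' :=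
  globMatchC893_of_open305c ⟨hT6, upFactC305b_of_parts hUpDat hCut hFI, hSplit⟩

end Fermat.Agent.LT.T7.H305

end
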