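import Mathlib
import Fermat.Agent.LT.T7.H305.Match893Closed4
import Fermat.Agent.LT.T7.H314.UpFactBCore
import Fermat.Agent.LT.T7.H322.CutOnUp
import Fermat.Agent.LT.T7.H269.CutOnOutUp
import Fermat.Agent.LT.T7.H560.SuppOutUp
import Fermat.Agent.LT.T7.H102.IsoCont
import Fermat.Agent.LT.T7.H117.GrpSplit
import Fermat.Agent.LT.T7.H852.PtFactUp
import Fermat.Agent.LT.T7.H71.RayFinUp
import Fermat.Agent.LT.T7.H553.SplitEnum
import Fermat.Agent.LT.T7.H159.RestrGL

/-!
# Row LT, tower T7, station C2 (helper305): INTEGRATION v5 -- `H893.GlobMatchC893`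

OFF-MAIN.  Complete proofs, nothing assumed.  ADDITIVE (integrations v3, v4 are not changed).

    globMatchC893_of_open305d : OpenMatch305d K K' → H893.GlobMatchC893 K K'

NEWLY CLOSED (vendored byte-identical, ONE closure): the cut of `UpFactC305b` by helper314
(`upFactC305b_of_leaves314`), `cutOnUpC_of322` helper322, `CutOnOutUpC340` helper269,
`SuppOutUpC340` helper560, `IsoContC340` helper102, `GrpSplitC340` helper117,
`PtFactUpC340` helper852, `RayFinUpC340` helper71, `SplitEnumC314` helper553, the assets of
the station downstairs (helper558 and his leaves), second countability helper159.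

OPEN (the structure `OpenMatch305d`): `T6.T6Out` (tower T6, supplied by the master),
`H340.UpDatC340`, `H340.SuppUpC340`, `H340.ArchIntblUpC340`, `LocEqSplitC305b`.
-/

set_option autoImplicit false

open AutomorphicForm IsDedekindDomain NumberField MeasureTheory
open scoped ComplexConjugate

noncomputable section

namespace Fermat.Agent.LT.T7.H305

open Fermat.Agent.LT.H556 Fermat.Agent.LT.H556.A0 Fermat.Agent.LT.T7

attribute [local instance] Fermat.Agent.LT.T5.instMeasurableSpaceG

variable (K K' : Type) [Field K] [NumberField K] [Field K'] [NumberField K'] [Algebra K K']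

/-- **THE OPEN WALL of the station C2 for `LocHyp893`** (integration v5). -/
structure OpenMatch305d : Prop where
  t6 : T6.T6Out
  upDat : H340.UpDatC340 K K'
  suppUp : H340.SuppUpC340 K K'
  archIntblUp : H340.ArchIntblUpC340 K K'
  locEqSplit : LocEqSplitC305b K K'

/-- The asset: the local groups downstairs are second countable (helper159). -/
theorem secCountC340_closed305 : H340.SecCountC340 K :=
  ⟨fun v => H159.secondCountable_GLv159 K v, H159.secondCountable_GLC159⟩

variable {K K'}

/-- The cut-off part upstairs from `SuppUpC340`. -/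
theorem cutOnUpC340_of_suppUp305 (h : H340.SuppUpC340 K K') : H340.CutOnUpC340 K K' :=
  H322.cutOnUpC_of322 (H560.suppOutUpC560 K') h (H269.cutOnOutUpC269 K K')
    (H233.torCommC233 K') (H277.ellRegC277 K K') (OutOpen729.outOpenC729 K')
    (H409.compContC409 K) (H409.compContC409 K') (H505.haarSigmaC505 K) H102.isoContC102

/-- `UpFactC305b` from the open wall (v5). -/
theorem upFactC305b_of_open305d (h : OpenMatch305d K K') : UpFactC305b K K' :=
  H314.upFactC305b_of_leaves314 h.upDat (cutOnUpC340_of_suppUp305 h.suppUp)
    (H117.grpSplitC117 K K') (H852.ptFactUpC852 K K') (H71.rayFinUpC71 K K') h.archIntblUp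
    H194.archIntblC194 (H409.compContC409 K') (H16.biInvContC558_16 K')
    (H505.haarSigmaC505 K) (H505.haarSigmaC505 K') H102.isoContC102
    (secCountC340_closed305 K) (H553.splitEnumC_of553 K K' (H558.sigmaLocC558 (K := K')))

/-- **THE MATCHING THEOREM `H893.GlobMatchC893` from the open wall (v5).** -/
theorem globMatchC893_of_open305d (h : OpenMatch305d K K') : H893.GlobMatchC893 K K' :=
  globMatchC893_of_open305c ⟨h.t6, upFactC305b_of_open305d h, h.locEqSplit⟩

end Fermat.Agent.LT.T7.H305

end
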