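import Mathlib
import Fermat.Agent.LT.T7.H305.Match893Closed5
import Fermat.Agent.LT.T7.H208.LocEqSplit
import Fermat.Agent.LT.T7.H176.FD.ArchIntblUp
import Fermat.Agent.LT.T7.H341.UpDatClosed
import Fermat.Agent.LT.T7.H379.SuppUp

/-!
# Row LT, tower T7, station C2 (helper305): INTEGRATION v6 -- `H893.GlobMatchC893` CLOSED

OFF-MAIN.  Complete proofs, nothing assumed.  ADDITIVE (integrations v3, v4, v5 are not
changed).

    globMatchC893_closed305 : T6.T6Out → H893.GlobMatchC893 K K'

THE WHOLE STATION IS CLOSED: the only hypothesis left is `T6.T6Out` (the output of the tower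
T6, supplied by the master).  NEWLY CLOSED (vendored byte-identical, ONE closure):
`H340.UpDatC340` helper341 (`upDatC_closed341`; leaves helper267, helper999, helper887),
`H340.SuppUpC340` helper379 (`suppUpC379`), `H340.ArchIntblUpC340` helper176
(`archIntblUpC176`), `LocEqSplitC305b` helper208 (`locEqSplitC305b_208`).
-/

set_option autoImplicit false

open AutomorphicForm IsDedekindDomain NumberField MeasureTheory
open scoped ComplexConjugate

noncomputable section

namespace Fermat.Agent.LT.T7.H305

open Fermat.Agent.LT.H556 Fermat.Agent.LT.H556.A0 Fermat.Agent.LT.T7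

attribute [local instance] Fermat.Agent.LT.T5.instMeasurableSpaceG

variable (K K' : Type) [Field K] [NumberField K] [Field K'] [NumberField K'] [Algebra K K']

/-- The open wall of integration v5 from `T6.T6Out`. -/
theorem openMatch305d_closed305 (hT6 : T6.T6Out) : OpenMatch305d K K' :=
  ⟨hT6, UD341.upDatC_closed341 K K', H379.suppUpC379 K K', H176.archIntblUpC176 K K',
    H208.locEqSplitC305b_208 K K'⟩

/-- `UpFactC305b`, CLOSED. -/
theorem upFactC305b_closed305 (hT6 : T6.T6Out) : UpFactC305b K K' :=
  upFactC305b_of_open305d (openMatch305d_closed305 K K' hT6)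

/-- `FactUpC305b`, CLOSED. -/
theorem factUpC305b_closed305 (hT6 : T6.T6Out) : FactUpC305b K K' :=
  factUpC305b_of_open305c ⟨hT6, upFactC305b_closed305 K K' hT6, H208.locEqSplitC305b_208 K K'⟩

/-- `CutIntC305b`, CLOSED. -/
theorem cutIntC305b_closed305 (hT6 : T6.T6Out) : CutIntC305b K K' :=
  cutIntC305b_of_open305c ⟨hT6, upFactC305b_closed305 K K' hT6, H208.locEqSplitC305b_208 K K'⟩

/-- **THE MATCHING THEOREM `H893.GlobMatchC893`, CLOSED** (from the output of the tower T6
only). -/
theorem globMatchC893_closed305 (hT6 : T6.T6Out) : H893.GlobMatchC893 K K' :=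
  globMatchC893_of_open305d (openMatch305d_closed305 K K' hT6)

end Fermat.Agent.LT.T7.H305

end
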